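import Mathlib
import Fermat.Prelude.Def_GroupCohomology_ContinuousUnramified
import Fermat.Agent.Lib.DecompLift
import Fermat.Agent.S14.Wiring.ValRing
import Fermat.Agent.S55.Glue.LevelGalois

/-!
# (BrS) layer 1: a rational prime is a uniformiser at every unramified place (ORD)

`Qb = AlgebraicClosure ℚ`.  If `A` is a valuation subring of `Qb` over the rational prime `q`
and `F ≤ Qb` is a finite extension of `ℚ` which is unramified at `q` (the inertia groups of all
valuation subrings over `q` fix `F`), then every `y ∈ Fˣ` has `A.valuation (y * q ^ n) = 1` for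
some `n : ℤ`: the value group of `A ∩ F` is generated by the value of `q`.

* `valuation_natCast_of_inertia_le`: Galois case, in `HeightOneSpectrum` language.
* `exists_zpow_of_isUnramifiedOutside`: the general statement in `Qb`.
* `valuation_natCast_of_isUnramifiedOutside`: `HeightOneSpectrum` form for any `F`
  unramified outside `S`, `q ∉ S`.
-/

set_option autoImplicit false

open scoped NumberField IntermediateField Pointwise
open IsDedekindDomain

namespace Fermat.Agent.S55.Count.BrS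

local notation "Qb" => AlgebraicClosure ℚ
local notation "Gq" => (AlgebraicClosure ℚ ≃ₐ[ℚ] AlgebraicClosure ℚ)

open Fermat.Agent.S14.Wiring.ValRing

local instance isAlgebraicQb_ord : Algebra.IsAlgebraic ℚ (AlgebraicClosure ℚ) :=
  AlgebraicClosure.isAlgebraic ℚ
local instance isAlgClosureQb_ord : IsAlgClosure ℚ (AlgebraicClosure ℚ) :=
  ⟨inferInstance, inferInstance⟩
local instance normalQb_ord : Normal ℚ (AlgebraicClosure ℚ) :=
  IsAlgClosure.normal ℚ (AlgebraicClosure ℚ)

/-- The prime of `𝓞 L` below a valuation subring over `q` lies over `(q) ⊆ ℤ`. -/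
theorem under_primeUnder (L : IntermediateField ℚ Qb) (A : ValuationSubring Qb) {q : ℕ}
    (hq : q.Prime) (hA : A.LiesOverPrime q) :
    (primeUnder L A).under ℤ = Ideal.span {(q : ℤ)} := by
  have hmax : (Ideal.span {(q : ℤ)}).IsMaximal :=
    PrincipalIdealRing.isMaximal_of_irreducible
      (Nat.prime_iff_prime_int.mp hq).irreducible
  symm
  refine hmax.eq_of_le ?_ ?_
  · intro h
    have h1 : (1 : ℤ) ∈ (primeUnder L A).under ℤ := h ▸ Submodule.mem_top
    rw [Ideal.mem_comap, map_one] at h1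
    exact (primeUnder_isPrime L A).ne_top ((Ideal.eq_top_iff_one _).mpr h1)
  · rw [Ideal.span_le, Set.singleton_subset_iff]
    show (q : ℤ) ∈ (primeUnder L A).under ℤ
    rw [Ideal.mem_comap]
    have h := (natCast_mem_primeUnder_iff L A q).mpr hA
    simpa using h

/-- **(ORD), Galois case.**  If the inertia group of `A` (over `q`) fixes the finite Galois
extension `L` of `ℚ`, then `q` is a uniformiser at the prime of `L` below `A`. -/
theorem valuation_natCast_of_inertia_le (L : IntermediateField ℚ Qb) [NumberField L]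
    [IsGalois ℚ L] (A : ValuationSubring Qb) {q : ℕ} (hq : q.Prime) (hA : A.LiesOverPrime q)
    (hI : A.inertiaSubgroupIn ℚ ≤ L.fixingSubgroup) :
    (placeUnder L A hq hA).valuation L ((q : ℕ) : L) = WithZero.exp (-1 : ℤ) := by
  classical
  have : Fact q.Prime := ⟨hq⟩
  set P : Ideal (𝓞 L) := primeUnder L A with hP
  set p : Ideal ℤ := Ideal.span {(q : ℤ)} with hp
  have hpprime : p.IsPrime :=
    (Ideal.span_singleton_prime (by exact_mod_cast hq.ne_zero)).mpr
      (Nat.prime_iff_prime_int.mp hq)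
  have hp0 : p ≠ ⊥ := by
    rw [hp, Ne, Ideal.span_singleton_eq_bot]
    exact_mod_cast hq.ne_zero
  have hlo : P.LiesOver p := ⟨(under_primeUnder L A hq hA).symm⟩
  let v : HeightOneSpectrum ℤ := ⟨p, hpprime, hp0⟩
  set w : HeightOneSpectrum (𝓞 L) := placeUnder L A hq hA with hw
  have : w.asIdeal.LiesOver v.asIdeal := hlo
  -- the inertia group is trivial
  have htriv : ∀ σ : L ≃ₐ[ℚ] L, σ ∈ Ideal.inertia (L ≃ₐ[ℚ] L) P → σ = 1 := by
    intro σ hσ
    obtain ⟨τ, rfl⟩ := AlgEquiv.restrictNormalHom_surjective (F := ℚ) (K₁ := L) Qb σ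
    have hτL : ∀ x : L, τ (x : Qb) = ((AlgEquiv.restrictNormalHom (F := ℚ) (K₁ := Qb) L τ) x : L) :=
      fun x => (AlgEquiv.restrictNormal_commutes τ L x).symm
    have hτ : ∀ x ∈ L, IsIntegral ℤ x → τ x - x ∈ A.nonunits := by
      intro x hx hxi
      have hxi' : IsIntegral ℤ (⟨x, hx⟩ : L) :=
        (isIntegral_algebraMap_iff (algebraMap L Qb).injective).mp hxi
      let y : 𝓞 L := ⟨⟨x, hx⟩, hxi'⟩
      have h1 : (AlgEquiv.restrictNormalHom (F := ℚ) (K₁ := Qb) L τ) • y - y ∈ P := hσ y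
      rw [hP, mem_primeUnder] at h1
      rw [A.mem_nonunits_iff]
      have h2 : (((((AlgEquiv.restrictNormalHom (F := ℚ) (K₁ := Qb) L τ) • y - y : 𝓞 L) : L)) : Qb)
          = τ x - x := by
        have h3 := hτL ⟨x, hx⟩
        simp only at h3
        rw [h3]
        rfl
      rw [h2] at h1
      exact h1
    obtain ⟨σ', hσ'I, hσ'⟩ := Fermat.Agent.Lib.DecompLift.exists_inertia_lift L A hq hA τ hτ
    have hfix := hI hσ'I
    ext x
    have h1 : σ' (x : Qb) = x := (IntermediateField.mem_fixingSubgroup_iff L σ').mp hfix x x.2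
    have h2 : τ (x : Qb) = x := by rw [← hσ' x x.2, h1]
    rw [hτL x] at h2
    simpa using h2
  have hcard : Nat.card (Ideal.inertia (L ≃ₐ[ℚ] L) P) = 1 := by
    rw [Nat.card_eq_one_iff_unique]
    refine ⟨⟨fun a b => Subtype.ext ?_⟩, ⟨1⟩⟩
    rw [htriv a a.2, htriv b b.2]
  have he : p.ramificationIdx' P = 1 := by
    rw [Ideal.ramificationIdx'_eq_ramificationIdx p P hp0,
      ← Ideal.ramificationIdxIn_eq_ramificationIdx p P (L ≃ₐ[ℚ] L),
      ← Ideal.card_inertia_eq_ramificationIdxIn (G := L ≃ₐ[ℚ] L) p P, hcard]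
  have h1 := HeightOneSpectrum.valuation_liesOver L v w ((q : ℕ) : ℚ)
  have h2 : v.valuation ℚ ((q : ℕ) : ℚ) = WithZero.exp (-1 : ℤ) := by
    have h3 : ((q : ℕ) : ℚ) = algebraMap ℤ ℚ (q : ℤ) := by simp
    rw [h3, HeightOneSpectrum.valuation_of_algebraMap]
    exact v.intValuation_singleton (by exact_mod_cast hq.ne_zero) rfl
  have h4 : v.asIdeal.ramificationIdx' w.asIdeal = 1 := he
  rw [h2, h4, pow_one] at h1
  rw [h1]
  congr 1

/-- **(ORD).**  If `F` is unramified outside `S`, `q ∉ S` and `A` lies over `q`, then every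
nonzero element of `F` is a unit of `A` times a power of `q`. -/
theorem exists_zpow_of_isUnramifiedOutside {S : Finset Nat.Primes}
    {F : IntermediateField ℚ Qb} (hF : F.IsUnramifiedOutside S) (q : Nat.Primes) (hq : q ∉ S)
    (A : ValuationSubring Qb) (hA : A.LiesOverPrime (q : ℕ)) (y : Qb) (hyF : y ∈ F)
    (hy : y ≠ 0) : ∃ n : ℤ, A.valuation (y * ((q : ℕ) : Qb) ^ n) = 1 := by
  have hL := Fermat.Agent.S55.Glue.isUnramifiedOutside_normalClosure hF
  set L : IntermediateField ℚ Qb := IntermediateField.normalClosure ℚ F Qb with hLdef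
  have := hL.1
  have : NumberField L := ⟨⟩
  have : Normal ℚ L := normalClosure.normal ℚ F Qb
  have : IsGalois ℚ L := ⟨⟩
  have hI := hL.2 q hq A hA
  have h1 := valuation_natCast_of_inertia_le L A q.2 hA hI
  set w : HeightOneSpectrum (𝓞 L) := placeUnder L A q.2 hA with hw
  have hyL : y ∈ L := (IntermediateField.le_normalClosure F) hyF
  let y' : L := ⟨y, hyL⟩
  have hy' : y' ≠ 0 := fun h => hy (congrArg Subtype.val h)
  have hv0 : w.valuation L y' ≠ 0 := by rw [Ne, map_eq_zero]; exact hy'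
  set n : ℤ := WithZero.log (w.valuation L y') with hn
  have hvn : w.valuation L y' = WithZero.exp n := (WithZero.exp_log hv0).symm
  refine ⟨n, ?_⟩
  have h2 : w.valuation L (y' * ((q : ℕ) : L) ^ n) = 1 := by
    rw [map_mul, map_zpow₀, h1, hvn, ← WithZero.exp_zsmul, ← WithZero.exp_add,
      ← WithZero.exp_zero]
    congr 1
    simp
  have h3 := (valuation_eq_one_iff (F := L) (A := A) (v := w) rfl (y' * ((q : ℕ) : L) ^ n)).mp h2
  have h4 : (((y' * ((q : ℕ) : L) ^ n : L)) : Qb) = y * ((q : ℕ) : Qb) ^ n := by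
    show (algebraMap L Qb) (y' * ((q : ℕ) : L) ^ n) = _
    rw [map_mul, map_zpow₀, map_natCast]
    rfl
  rw [h4] at h3
  exact h3

/-- **(ORD), `HeightOneSpectrum` form.**  If `F` is unramified outside `S` and `q ∉ S`, then `q`
is a uniformiser at every prime of `F` over `q`. -/
theorem valuation_natCast_of_isUnramifiedOutside {S : Finset Nat.Primes}
    {F : IntermediateField ℚ Qb} [NumberField F] (hF : F.IsUnramifiedOutside S)
    (q : Nat.Primes) (hq : q ∉ S) (A : ValuationSubring Qb) (hA : A.LiesOverPrime (q : ℕ)) :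
    (placeUnder F A q.2 hA).valuation F (((q : ℕ) : ℕ) : F) = WithZero.exp (-1 : ℤ) := by
  set w : HeightOneSpectrum (𝓞 F) := placeUnder F A q.2 hA with hw
  obtain ⟨π, hπ⟩ := w.valuation_exists_uniformizer F
  have hπ0 : π ≠ 0 := by
    rintro rfl
    rw [map_zero] at hπ
    exact WithZero.exp_ne_zero hπ.symm
  obtain ⟨n, hn⟩ := exists_zpow_of_isUnramifiedOutside hF q hq A hA (π : Qb) π.2
    (fun h => hπ0 (Subtype.ext h))
  have h4 : (((π * (((q : ℕ) : ℕ) : F) ^ n : F)) : Qb) = (π : Qb) * ((q : ℕ) : Qb) ^ n := by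
    show (algebraMap F Qb) (π * (((q : ℕ) : ℕ) : F) ^ n) = _
    rw [map_mul, map_zpow₀, map_natCast]
    rfl
  rw [← h4] at hn
  have h2 := (valuation_eq_one_iff (F := F) (A := A) (v := w) rfl _).mpr hn
  have hq0 : (((q : ℕ) : ℕ) : F) ≠ 0 := by exact_mod_cast q.2.ne_zero
  have hvq0 : w.valuation F (((q : ℕ) : ℕ) : F) ≠ 0 := by rw [Ne, map_eq_zero]; exact hq0
  set e : ℤ := WithZero.log (w.valuation F (((q : ℕ) : ℕ) : F)) with he
  have hve : w.valuation F (((q : ℕ) : ℕ) : F) = WithZero.exp e := (WithZero.exp_log hvq0).symm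
  have hlt : w.valuation F (((q : ℕ) : ℕ) : F) < 1 := by
    have h5 : (((q : ℕ) : ℕ) : F) = algebraMap (𝓞 F) F (((q : ℕ) : ℕ) : 𝓞 F) := by simp
    rw [h5, HeightOneSpectrum.valuation_lt_one_iff_mem]
    exact (natCast_mem_primeUnder_iff F A q).mpr hA
  rw [hve, ← WithZero.exp_zero, WithZero.exp_lt_exp] at hlt
  rw [map_mul, map_zpow₀, hπ, hve, ← WithZero.exp_zsmul, ← WithZero.exp_add, ← WithZero.exp_zero,
    WithZero.exp_inj] at h2
  rw [hve, WithZero.exp_inj]
  have h6 : n * e = 1 := by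
    have : (-1 : ℤ) + n • e = 0 := h2
    rw [smul_eq_mul] at this
    linarith
  have h7 : e = 1 ∨ e = -1 := Int.isUnit_iff.mp (IsUnit.of_mul_eq_one _ (by rw [mul_comm]; exact h6))
  rcases h7 with h7 | h7
  · omega
  · exact h7

/-! ### Orders modulo `p` relative to the uniformiser `q` -/

/-- `y` has order `≡ c` modulo `p` at `A`, measured with the uniformiser `q`:
`y = q ^ n * unit` with `n ≡ c`. -/
def OrdMod (p : ℕ) (A : ValuationSubring Qb) (q : ℕ) (y : Qb) (c : ZMod p) : Prop :=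
  ∃ n : ℤ, (n : ZMod p) = c ∧ A.valuation (y * (q : Qb) ^ (-n)) = 1

section OrdMod

variable {p : ℕ} {A : ValuationSubring Qb} {q : ℕ}

theorem ordMod_of_valuation_eq_one {y : Qb} (h : A.valuation y = 1) : OrdMod p A q y 0 :=
  ⟨0, by simp, by simpa using h⟩

theorem ordMod_one : OrdMod p A q 1 0 := ordMod_of_valuation_eq_one (map_one _)

theorem OrdMod.congr {y : Qb} {c c' : ZMod p} (h : OrdMod p A q y c) (hc : c = c') :
    OrdMod p A q y c' := hc ▸ h

theorem OrdMod.mul (hq : q ≠ 0) {y y' : Qb} {c c' : ZMod p} (h : OrdMod p A q y c)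
    (h' : OrdMod p A q y' c') : OrdMod p A q (y * y') (c + c') := by
  obtain ⟨n, hn, hv⟩ := h
  obtain ⟨n', hn', hv'⟩ := h'
  refine ⟨n + n', by push_cast; rw [hn, hn'], ?_⟩
  have hq' : (q : Qb) ≠ 0 := by exact_mod_cast hq
  have h1 : y * y' * (q : Qb) ^ (-(n + n')) = (y * (q : Qb) ^ (-n)) * (y' * (q : Qb) ^ (-n')) := by
    rw [neg_add, zpow_add₀ hq']; ring
  rw [h1, map_mul, hv, hv', one_mul]

theorem OrdMod.inv {y : Qb} {c : ZMod p} (h : OrdMod p A q y c) : OrdMod p A q y⁻¹ (-c) := by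
  obtain ⟨n, hn, hv⟩ := h
  refine ⟨-n, by push_cast; rw [hn], ?_⟩
  have h1 : y⁻¹ * (q : Qb) ^ (-(-n)) = (y * (q : Qb) ^ (-n))⁻¹ := by
    rw [mul_inv, ← zpow_neg]
  rw [h1, map_inv₀, hv, inv_one]

theorem OrdMod.div (hq : q ≠ 0) {y y' : Qb} {c c' : ZMod p} (h : OrdMod p A q y c)
    (h' : OrdMod p A q y' c') : OrdMod p A q (y / y') (c - c') := by
  rw [div_eq_mul_inv, sub_eq_add_neg]
  exact h.mul hq h'.inv

theorem OrdMod.pow (hq : q ≠ 0) {y : Qb} {c : ZMod p} (h : OrdMod p A q y c) (k : ℕ) :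
    OrdMod p A q (y ^ k) (k * c) := by
  induction k with
  | zero => simpa using (ordMod_one (p := p) (A := A) (q := q))
  | succ k ih =>
    rw [pow_succ]
    refine (ih.mul hq h).congr ?_
    push_cast
    ring

/-- Uniqueness of the order modulo `p`. -/
theorem OrdMod.unique (hA : A.LiesOverPrime q) {y : Qb} (hy : y ≠ 0) {c c' : ZMod p}
    (h : OrdMod p A q y c) (h' : OrdMod p A q y c') : c = c' := by
  obtain ⟨n, hn, hv⟩ := h
  obtain ⟨n', hn', hv'⟩ := h'
  have hvq : A.valuation (q : Qb) < 1 := A.mem_nonunits_iff.mp hA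
  by_cases hq0 : (q : Qb) = 0
  · rw [map_mul, map_zpow₀, hq0, map_zero] at hv hv'
    have hn0 : -n = 0 := by
      by_contra hn0
      rw [zero_zpow _ hn0, mul_zero] at hv
      exact zero_ne_one hv
    have hn0' : -n' = 0 := by
      by_contra hn0'
      rw [zero_zpow _ hn0', mul_zero] at hv'
      exact zero_ne_one hv'
    have : n = n' := by omega
    rw [← hn, ← hn', this]
  have hvq0 : A.valuation (q : Qb) ≠ 0 := (A.valuation.ne_zero_iff).mpr hq0
  have hvy0 : A.valuation y ≠ 0 := (A.valuation.ne_zero_iff).mpr hy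
  rw [map_mul, map_zpow₀] at hv hv'
  have h1 : A.valuation (q : Qb) ^ (-n) = A.valuation (q : Qb) ^ (-n') :=
    mul_left_cancel₀ hvy0 (hv.trans hv'.symm)
  have h2 : -n = -n' := by
    by_contra hne
    rcases lt_or_gt_of_ne hne with hlt | hlt
    · have := zpow_lt_zpow_right_of_lt_one₀ (zero_lt_iff.mpr hvq0) hvq hlt
      rw [h1] at this
      exact lt_irrefl _ this
    · have := zpow_lt_zpow_right_of_lt_one₀ (zero_lt_iff.mpr hvq0) hvq hlt
      rw [h1] at this
      exact lt_irrefl _ this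
  have h3 : n = n' := by omega
  rw [← hn, ← hn', h3]

/-- Units of a translated valuation subring. -/
theorem valuation_smul_eq_one_iff (A : ValuationSubring Qb) (τ : Gq) (x : Qb) :
    (τ • A).valuation (τ x) = 1 ↔ A.valuation x = 1 := by
  have key : ∀ (B : ValuationSubring Qb) (z : Qb),
      B.valuation z = 1 ↔ (z ∈ B ∧ z ∉ B.nonunits) := by
    intro B z
    rw [← B.valuation_le_one_iff, B.mem_nonunits_iff, not_lt]
    exact ⟨fun h => ⟨h.le, h.ge⟩, fun h => le_antisymm h.1 h.2⟩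
  rw [key, key, ValuationSubring.mem_pointwise_smul_iff_inv_smul_mem,
    Fermat.Agent.S55.Glue.mem_nonunits_smul_iff]
  have h1 : τ⁻¹ • τ x = x := by
    rw [AlgEquiv.smul_def]
    exact τ.symm_apply_apply x
  have h2 : τ⁻¹ (τ x) = x := τ.symm_apply_apply x
  rw [h1, h2]

/-- Galois equivariance of orders. -/
theorem OrdMod.smul {y : Qb} {c : ZMod p} (h : OrdMod p A q y c) (τ : Gq) :
    OrdMod p (τ • A) q (τ y) c := by
  obtain ⟨n, hn, hv⟩ := h
  refine ⟨n, hn, ?_⟩
  have h1 : τ y * (q : Qb) ^ (-n) = τ (y * (q : Qb) ^ (-n)) := by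
    rw [map_mul, map_zpow₀, map_natCast]
  rw [h1, valuation_smul_eq_one_iff]
  exact hv

/-- Galois equivariance of orders, other direction. -/
theorem OrdMod.of_smul {y : Qb} {c : ZMod p} (τ : Gq) (h : OrdMod p (τ⁻¹ • A) q y c) :
    OrdMod p A q (τ y) c := by
  have h1 := h.smul τ
  rwa [smul_inv_smul] at h1

/-- **(ORD)** in `OrdMod` form: elements of extensions unramified outside `S` have an order at
every valuation subring over a prime outside `S`. -/
theorem exists_ordMod {S : Finset Nat.Primes} {F : IntermediateField ℚ Qb}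
    (hF : F.IsUnramifiedOutside S) (q : Nat.Primes) (hq : q ∉ S)
    (A : ValuationSubring Qb) (hA : A.LiesOverPrime (q : ℕ)) (y : Qb) (hyF : y ∈ F)
    (hy : y ≠ 0) : ∃ c : ZMod p, OrdMod p A q y c := by
  obtain ⟨n, hn⟩ := exists_zpow_of_isUnramifiedOutside hF q hq A hA y hyF hy
  exact ⟨((-n : ℤ) : ZMod p), -n, rfl, by rw [neg_neg]; exact hn⟩

/-- Order `≡ 0`: a unit times a `p`-th power of a rational number. -/
theorem OrdMod.exists_pow {y : Qb} (h : OrdMod p A q y 0) :
    ∃ m : ℤ, A.valuation (y * ((q : Qb) ^ m) ^ p) = 1 := by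
  obtain ⟨n, hn, hv⟩ := h
  rw [ZMod.intCast_zmod_eq_zero_iff_dvd] at hn
  obtain ⟨k, rfl⟩ := hn
  refine ⟨-k, ?_⟩
  have h1 : ((q : Qb) ^ (-k)) ^ p = (q : Qb) ^ (-((p : ℤ) * k)) := by
    rw [← zpow_natCast, ← zpow_mul]
    congr 1
    ring
  rw [h1]
  exact hv

end OrdMod

end Fermat.Agent.S55.Count.BrS
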