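import Mathlib
import Fermat.Agent.S55.Count.BrS.Ord
import Fermat.Agent.S55.Base.Capit
import Fermat.Agent.CFT.Kummer.Ram
import Fermat.Agent.S55.Glue.PlacesAbove

/-!
# (BrS) layer 2: capitulation modulo `p` (CAP)

`M ≤ Qb` a number field unramified outside `S ∋ p`.

* `exists_xi_prime` (CAP-1): for every prime `w` of `𝓞 M` there are a finite extension `M₁ ≥ M`
  unramified outside `S` and `ξ ∈ M₁ˣ` whose order at every valuation subring `A` of `Qb` over a
  prime `q ∉ S` is `≡ 1` modulo `p` if `A` induces `w` and `≡ 0` otherwise.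
  (`w ^ h = (γ)`, `h = p ^ j * m'` the class number; `ξ = (γ ^ (1 / p ^ j)) ^ m''`.)
* `exists_xi_finset` (CAP): finite products.
* `exists_xi_of_fun` (CAP-F): every function `F` on the valuation subrings outside `S` which only
  depends on the induced prime of `M` and is supported on finitely many primes of `M` is the
  order function modulo `p` of some `ξ` in a finite extension of `M` unramified outside `S`.
-/

set_option autoImplicit false

open scoped NumberField IntermediateField Pointwise nonZeroDivisors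
open IsDedekindDomain

namespace Fermat.Agent.S55.Count.BrS

local notation "Qb" => AlgebraicClosure ℚ
local notation "Gq" => (AlgebraicClosure ℚ ≃ₐ[ℚ] AlgebraicClosure ℚ)

open Fermat.Agent.S14.Wiring.ValRing

/-- A prime outside `S ∋ p` is prime to every power of `p`. -/
theorem coprime_pow_of_notMem {p : ℕ} [Fact p.Prime] {S : Finset Nat.Primes}
    (hpS : ExtCitation.pPrime p ∈ S) (q : Nat.Primes) (hq : q ∉ S) (m : ℕ) :
    Nat.Coprime (q : ℕ) (p ^ m) := by
  have hp : p.Prime := Fact.out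
  apply Nat.Coprime.pow_right
  rw [Nat.coprime_primes q.2 hp]
  intro hqp
  apply hq
  have : q = ExtCitation.pPrime p := Subtype.ext hqp
  rw [this]
  exact hpS

/-- **(CAP-1).** -/
theorem exists_xi_prime {p : ℕ} [Fact p.Prime] (S : Finset Nat.Primes)
    (hpS : ExtCitation.pPrime p ∈ S) (M : IntermediateField ℚ Qb) [NumberField M]
    (hM : M.IsUnramifiedOutside S) (w : HeightOneSpectrum (𝓞 M)) :
    ∃ (ξ : Qb) (M₁ : IntermediateField ℚ Qb), ξ ≠ 0 ∧ M₁.IsUnramifiedOutside S ∧ M ≤ M₁ ∧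
      ξ ∈ M₁ ∧ ∀ (q : Nat.Primes), q ∉ S → ∀ (A : ValuationSubring Qb),
        A.LiesOverPrime (q : ℕ) →
        OrdMod p A q ξ (if primeUnder M A = w.asIdeal then 1 else 0) := by
  classical
  have hp : p.Prime := Fact.out
  have : NeZero p := ⟨hp.ne_zero⟩
  -- the class number and a generator of `w ^ h`
  set h : ℕ := NumberField.classNumber M with hh
  have hh0 : h ≠ 0 := NumberField.classNumber_ne_zero M
  have hwmem : w.asIdeal ∈ (Ideal (𝓞 M))⁰ := mem_nonZeroDivisors_iff_ne_zero.mpr w.ne_bot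
  have hwh : w.asIdeal ^ h ∈ (Ideal (𝓞 M))⁰ := pow_mem hwmem h
  have hprinc : (w.asIdeal ^ h).IsPrincipal := by
    rw [← ClassGroup.mk0_eq_one_iff hwh]
    have h1 : ClassGroup.mk0 (⟨w.asIdeal ^ h, hwh⟩ : (Ideal (𝓞 M))⁰) =
        ClassGroup.mk0 (⟨w.asIdeal, hwmem⟩ : (Ideal (𝓞 M))⁰) ^ h := by
      rw [← map_pow]
      rfl
    rw [h1]
    exact pow_card_eq_one
  obtain ⟨γ, hγ⟩ := hprinc.principal
  have hγ' : w.asIdeal ^ h = Ideal.span {γ} := hγ
  have hγ0 : γ ≠ 0 := by
    rintro rfl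
    rw [Set.singleton_zero, Ideal.span_zero] at hγ'
    exact (pow_ne_zero h w.ne_bot) hγ'
  have hγmem : γ ∈ w.asIdeal ^ h := by rw [hγ']; exact Ideal.mem_span_singleton_self γ
  have hγnot : γ ∉ w.asIdeal ^ (h + 1) := by
    intro hmem
    have h1 : w.asIdeal ^ h ≤ w.asIdeal ^ (h + 1) := by
      rw [hγ', Ideal.span_le, Set.singleton_subset_iff]
      exact hmem
    exact absurd h1 (not_le_of_gt (Ideal.pow_succ_lt_pow w.ne_bot h))
  -- decomposition of the class number
  obtain ⟨j, m', hm', hjm⟩ := Nat.exists_eq_pow_mul_and_not_dvd hh0 p hp.ne_one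
  have hm'0 : (m' : ZMod p) ≠ 0 := by
    rw [Ne, ZMod.natCast_eq_zero_iff]
    exact hm'
  set m'' : ℕ := ((m' : ZMod p)⁻¹).val with hm''
  have hmm : ((m'' : ℕ) : ZMod p) * (m' : ZMod p) = 1 := by
    rw [hm'', ZMod.natCast_zmod_val]
    exact inv_mul_cancel₀ hm'0
  -- the root
  have hpj : 0 < p ^ j := pow_pos hp.pos j
  set γQ : Qb := (((γ : 𝓞 M) : M) : Qb) with hγQ
  have hγQ0 : γQ ≠ 0 := by
    rw [hγQ]
    intro h0
    apply hγ0
    have h1 : ((γ : 𝓞 M) : M) = 0 := Subtype.ext h0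
    exact_mod_cast h1
  obtain ⟨ξ₀, hξ₀⟩ := IsAlgClosed.exists_pow_nat_eq γQ hpj
  have hξ₀0 : ξ₀ ≠ 0 := by
    rintro rfl
    rw [zero_pow hpj.ne'] at hξ₀
    exact hγQ0 hξ₀.symm
  -- the valuation of `γ` at the valuation subrings outside `S`
  have hval : ∀ (q : Nat.Primes), q ∉ S → ∀ (A : ValuationSubring Qb),
      A.LiesOverPrime (q : ℕ) → ∀ ε : ℕ, ε = (if primeUnder M A = w.asIdeal then 1 else 0) →
      A.valuation (γQ * ((((q : ℕ) : M) ^ (-((m' * ε : ℕ) : ℤ)) : M) : Qb) ^ (p ^ j)) = 1 := by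
    intro q hq A hA ε hε
    by_cases hAw : primeUnder M A = w.asIdeal
    · rw [if_pos hAw] at hε
      subst hε
      have hwA : w = placeUnder M A q.2 hA := HeightOneSpectrum.ext hAw.symm
      have hq1 := valuation_natCast_of_isUnramifiedOutside hM q hq A hA
      rw [← hwA] at hq1
      -- valuation of `γ` at `w`
      have hv0 : w.valuation M ((γ : 𝓞 M) : M) ≠ 0 := by
        rw [Ne, map_eq_zero]
        exact_mod_cast hγ0
      set k : ℤ := WithZero.log (w.valuation M ((γ : 𝓞 M) : M)) with hk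
      have hvk : w.valuation M ((γ : 𝓞 M) : M) = WithZero.exp k := (WithZero.exp_log hv0).symm
      have h1 : w.valuation M ((γ : 𝓞 M) : M) ≤ WithZero.exp (-(h : ℤ)) := by
        have : ((γ : 𝓞 M) : M) = algebraMap (𝓞 M) M γ := rfl
        rw [this, HeightOneSpectrum.valuation_of_algebraMap,
          HeightOneSpectrum.intValuation_le_pow_iff_mem]
        exact hγmem
      have h2 : ¬ w.valuation M ((γ : 𝓞 M) : M) ≤ WithZero.exp (-((h + 1 : ℕ) : ℤ)) := by
        have : ((γ : 𝓞 M) : M) = algebraMap (𝓞 M) M γ := rfl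
        rw [this, HeightOneSpectrum.valuation_of_algebraMap,
          HeightOneSpectrum.intValuation_le_pow_iff_mem]
        exact hγnot
      rw [hvk, WithZero.exp_le_exp] at h1 h2
      have hkh : k = -(h : ℤ) := by push_cast at h2; omega
      have h3 : w.valuation M (((γ : 𝓞 M) : M) *
          (((q : ℕ) : M) ^ (-((m' * 1 : ℕ) : ℤ))) ^ (p ^ j)) = 1 := by
        rw [map_mul, map_pow, map_zpow₀, hq1, hvk, hkh, ← WithZero.exp_zsmul,
          ← WithZero.exp_nsmul, ← WithZero.exp_add, ← WithZero.exp_zero]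
        congr 1
        rw [hjm]
        push_cast
        simp only [smul_eq_mul, nsmul_eq_mul]
        push_cast
        ring
      have h4 := (valuation_eq_one_iff (F := M) (A := A) (v := w) hAw.symm _).mp h3
      exact h4
    · rw [if_neg hAw] at hε
      subst hε
      have hγA : γ ∉ primeUnder M A := by
        intro hmem
        have h1 : w.asIdeal ^ h ≤ primeUnder M A := by
          rw [hγ', Ideal.span_le, Set.singleton_subset_iff]
          exact hmem
        have h2 : w.asIdeal ≤ primeUnder M A := Ideal.IsPrime.le_of_pow_le h1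
        exact hAw (w.isMaximal.eq_of_le (primeUnder_isPrime M A).ne_top h2).symm
      have h3 := (notMem_primeUnder M A γ).mp hγA
      simp only [mul_zero, Nat.cast_zero, neg_zero, zpow_zero]
      have h5 : (((1 : M)) : Qb) = 1 := rfl
      rw [h5, one_pow, mul_one]
      exact h3
  -- the order of `ξ₀`
  have hord₀ : ∀ (q : Nat.Primes), q ∉ S → ∀ (A : ValuationSubring Qb),
      A.LiesOverPrime (q : ℕ) →
      OrdMod p A q ξ₀ ((m' : ZMod p) * (if primeUnder M A = w.asIdeal then 1 else 0)) := by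
    intro q hq A hA
    set ε : ℕ := (if primeUnder M A = w.asIdeal then 1 else 0) with hε
    have h1 := hval q hq A hA ε hε
    refine ⟨((m' * ε : ℕ) : ℤ), ?_, ?_⟩
    · rw [hε]
      split_ifs <;> simp
    · have h2 : γQ * ((((q : ℕ) : M) ^ (-((m' * ε : ℕ) : ℤ)) : M) : Qb) ^ (p ^ j) =
          (ξ₀ * ((q : ℕ) : Qb) ^ (-((m' * ε : ℕ) : ℤ))) ^ (p ^ j) := by
        rw [mul_pow, hξ₀]
        congr 2
      rw [h2] at h1
      exact Fermat.Agent.S55.Base.Capit.valuation_eq_one_of_pow hpj.ne' h1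
  -- the field
  set M₁ : IntermediateField ℚ Qb := (M⟮ξ₀⟯).restrictScalars ℚ with hM₁
  have hMM₁ : M ≤ M₁ := by
    intro c hc
    exact (M⟮ξ₀⟯).algebraMap_mem (⟨c, hc⟩ : M)
  have hξ₀M₁ : ξ₀ ∈ M₁ := IntermediateField.mem_adjoin_simple_self M ξ₀
  have hM₁ur : M₁.IsUnramifiedOutside S := by
    have := hM.1
    refine ⟨Fermat.Agent.CFT.Kummer.finiteDimensional_adjoin_simple M ξ₀, fun q hq A hA σ hσI => ?_⟩
    have hσM : σ ∈ M.fixingSubgroup := hM.2 q hq A hA hσI
    refine Fermat.Agent.CFT.Kummer.mem_fixingSubgroup_adjoin_simple M ξ₀ σ hσM ?_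
    set ε : ℕ := (if primeUnder M A = w.asIdeal then 1 else 0) with hε
    have h1 := hval q hq A hA ε hε
    exact Fermat.Agent.S55.Base.Capit.inertia_fixes_root M ξ₀ ((γ : 𝓞 M) : M) (p ^ j) hpj.ne'
      hξ₀ A q (coprime_pow_of_notMem hpS q hq j) hA _ h1 σ hσI hσM
  refine ⟨ξ₀ ^ m'', M₁, pow_ne_zero _ hξ₀0, hM₁ur, hMM₁, pow_mem hξ₀M₁ _, fun q hq A hA => ?_⟩
  refine ((hord₀ q hq A hA).pow q.2.ne_zero m'').congr ?_
  rw [← mul_assoc, hmm, one_mul]

/-- **(CAP).** Finite products of the elements of (CAP-1). -/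
theorem exists_xi_finset {p : ℕ} [Fact p.Prime] (S : Finset Nat.Primes)
    (hpS : ExtCitation.pPrime p ∈ S) (M : IntermediateField ℚ Qb) [NumberField M]
    (hM : M.IsUnramifiedOutside S) (c : HeightOneSpectrum (𝓞 M) → ℕ)
    (T : Finset (HeightOneSpectrum (𝓞 M))) :
    ∃ (ξ : Qb) (M₁ : IntermediateField ℚ Qb), ξ ≠ 0 ∧ M₁.IsUnramifiedOutside S ∧ M ≤ M₁ ∧
      ξ ∈ M₁ ∧ ∀ (q : Nat.Primes), q ∉ S → ∀ (A : ValuationSubring Qb),
        A.LiesOverPrime (q : ℕ) →
        OrdMod p A q ξ (∑ w ∈ T, if primeUnder M A = w.asIdeal then (c w : ZMod p) else 0) := by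
  classical
  induction T using Finset.induction_on with
  | empty =>
    exact ⟨1, M, one_ne_zero, hM, le_rfl, one_mem _, fun q hq A hA => by
      simpa using (ordMod_one (p := p) (A := A) (q := q))⟩
  | insert w T hw ih =>
    obtain ⟨ξ, M₁, hξ, hM₁, hMM₁, hξM₁, hord⟩ := ih
    obtain ⟨ξ', M₂, hξ', hM₂, hMM₂, hξ'M₂, hord'⟩ := exists_xi_prime (p := p) S hpS M hM w
    have h1 : ξ' ∈ M₁ ⊔ M₂ := (le_sup_right : M₂ ≤ M₁ ⊔ M₂) hξ'M₂
    have h2 : ξ ∈ M₁ ⊔ M₂ := (le_sup_left : M₁ ≤ M₁ ⊔ M₂) hξM₁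
    refine ⟨ξ' ^ c w * ξ, M₁ ⊔ M₂, mul_ne_zero (pow_ne_zero _ hξ') hξ, hM₁.sup hM₂,
      hMM₁.trans le_sup_left, mul_mem (pow_mem h1 _) h2, fun q hq A hA => ?_⟩
    rw [Finset.sum_insert hw]
    refine (((hord' q hq A hA).pow q.2.ne_zero (c w)).mul q.2.ne_zero (hord q hq A hA)).congr ?_
    congr 1
    split_ifs <;> simp

/-- **(CAP-F).** A function on the valuation subrings outside `S` which only depends on the
induced prime of `M` and is supported on finitely many primes of `M` is the order function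
modulo `p` of an element of a finite extension of `M` unramified outside `S`. -/
theorem exists_xi_of_fun {p : ℕ} [Fact p.Prime] (S : Finset Nat.Primes)
    (hpS : ExtCitation.pPrime p ∈ S) (M : IntermediateField ℚ Qb) [NumberField M]
    (hM : M.IsUnramifiedOutside S) (F : ValuationSubring Qb → ZMod p)
    (hinv : ∀ q : Nat.Primes, q ∉ S → ∀ A A' : ValuationSubring Qb, A.LiesOverPrime (q : ℕ) →
      A'.LiesOverPrime (q : ℕ) → primeUnder M A = primeUnder M A' → F A = F A')
    (T : Finset (HeightOneSpectrum (𝓞 M)))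
    (hsupp : ∀ q : Nat.Primes, q ∉ S → ∀ A : ValuationSubring Qb, A.LiesOverPrime (q : ℕ) →
      F A ≠ 0 → ∃ w ∈ T, primeUnder M A = w.asIdeal) :
    ∃ (ξ : Qb) (M₁ : IntermediateField ℚ Qb), ξ ≠ 0 ∧ M₁.IsUnramifiedOutside S ∧ M ≤ M₁ ∧
      ξ ∈ M₁ ∧ ∀ (q : Nat.Primes), q ∉ S → ∀ (A : ValuationSubring Qb),
        A.LiesOverPrime (q : ℕ) → OrdMod p A q ξ (F A) := by
  classical
  have hp : p.Prime := Fact.out
  have : NeZero p := ⟨hp.ne_zero⟩
  have hex : ∀ w : HeightOneSpectrum (𝓞 M), ∃ A : ValuationSubring Qb,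
      w.asIdeal = primeUnder M A := fun w => exists_valuationSubring w
  choose Aw hAw using hex
  obtain ⟨ξ, M₁, hξ, hM₁, hMM₁, hξM₁, hord⟩ :=
    exists_xi_finset (p := p) S hpS M hM (fun w => (F (Aw w)).val) T
  refine ⟨ξ, M₁, hξ, hM₁, hMM₁, hξM₁, fun q hq A hA => (hord q hq A hA).congr ?_⟩
  by_cases hex : ∃ w ∈ T, primeUnder M A = w.asIdeal
  · obtain ⟨w₀, hw₀T, hw₀⟩ := hex
    rw [Finset.sum_eq_single w₀]
    · rw [if_pos hw₀, ZMod.natCast_zmod_val]
      refine hinv q hq (Aw w₀) A ?_ hA ?_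
      · rw [← natCast_mem_primeUnder_iff M, ← hAw w₀, ← hw₀, natCast_mem_primeUnder_iff M]
        exact hA
      · rw [← hAw w₀, hw₀]
    · intro w _ hne
      rw [if_neg]
      intro h
      exact hne (HeightOneSpectrum.ext (h.symm.trans hw₀))
    · intro h
      exact absurd hw₀T h
  · have h0 : F A = 0 := by
      by_contra hne
      exact hex (hsupp q hq A hA hne)
    rw [h0]
    refine Finset.sum_eq_zero fun w hw => ?_
    rw [if_neg]
    intro h
    exact hex ⟨w, hw, h⟩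

end Fermat.Agent.S55.Count.BrS
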