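import Mathlib
import Fermat.Agent.S55.Base.Capit

/-!
# S55, route COUNT, (BE)(ii) = (BrS): the descent cocycle, algebraic half

`Qb = AlgebraicClosure ℚ`, `Gq = Gal(Qb/ℚ)`, `K ≤ Qb` finite and unramified outside `S`,
`ζ ∈ K` a primitive `p`-th root of unity, `G_K = K.fixingSubgroup`.

Data: a character `χ` of `G_K` of level `S` (constant modulo `Fix M`, `M` unramified outside
`S`), `b ∈ Kˣ` with a `p`-th root `β` and Kummer character `κ` (`s β = ζ ^ κ(s) β`), and an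
element `ξ` of a finite `S`-unramified field `M₁` such that for every `τ ∈ G_K`

  `τ ξ / (ξ · b ^ χ~(τ))`   (`χ~` the lift of `χ` to `{0, …, p-1}`)

is a `p`-th power in `M₁`.  (Existence of `ξ` is the arithmetic half: capitulation.)

Output (`brS_of_xi`): cochains `y : G × G → ZMod p`, `u : G → ZMod p` with
* `y` of level `S` on `G_K`,
* `u` level-constant (some finite level),
* `y(g, h) = κ(g) χ(h) + (u(g) + u(h) - u(g h))` on `G_K`.
So the class of `κ ∪ χ` in `H²(G_K, μ_p)` is inflated from level `S`.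

Construction: `η(τ)` := a chosen `p`-th root of `τ ξ / (ξ b ^ χ~(τ))`, `Ξ ^ p = ξ`,
`U(g) := g Ξ / (Ξ · β ^ χ~(g) · η(g))`, `Y(g,h) := b ^ (-carry(g,h)) · η(g h) / (η(g) · g η(h))`,
`u := log_ζ U`, `y := log_ζ Y`; then `Y(g,h) = ζ ^ (κ(g) χ~(h)) · U(g) U(h) / U(g h)`.
-/

set_option autoImplicit false

open scoped IntermediateField

namespace Fermat.Agent.S55.Count.BrS.Cocycle

local notation "Qb" => AlgebraicClosure ℚ
local notation "Gq" => (AlgebraicClosure ℚ ≃ₐ[ℚ] AlgebraicClosure ℚ)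

open Fermat.Agent.S55.Base.Capit

/-- the chosen `p`-th root `η(τ)` of `τ ξ / (ξ · b ^ χ~(τ))` -/
noncomputable def eta (p : ℕ) (χ : Gq → ZMod p) (b ξ : Qb) (τ : Gq) : Qb :=
  rootP p (τ ξ / (ξ * b ^ (χ τ).val))

/-- the carry of `χ~` -/
def carry (p : ℕ) (χ : Gq → ZMod p) (g h : Gq) : ℕ := ((χ g).val + (χ h).val) / p

/-- `U(g) = g Ξ / (Ξ · β ^ χ~(g) · η(g))` -/
noncomputable def UU (p : ℕ) (χ : Gq → ZMod p) (b ξ Ξ β : Qb) (g : Gq) : Qb :=
  g Ξ / (Ξ * β ^ (χ g).val * eta p χ b ξ g)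

/-- `Y(g,h) = b ^ (-carry(g,h)) · η(g h) / (η(g) · g η(h))` -/
noncomputable def YY (p : ℕ) (χ : Gq → ZMod p) (b ξ : Qb) (g h : Gq) : Qb :=
  (b ^ carry p χ g h)⁻¹ * eta p χ b ξ (g * h) / (eta p χ b ξ g * g (eta p χ b ξ h))

/-- `log_z (z ^ n) = n`. -/
theorem dlog_pow_nat {p : ℕ} [NeZero p] {z : Qb} (hz : IsPrimitiveRoot z p) (n : ℕ) :
    dlog p z (z ^ n) = (n : ZMod p) := by
  refine dlog_eq hz (n : ZMod p) ?_
  rw [ZMod.val_natCast]
  conv_lhs => rw [← Nat.div_add_mod n p, pow_add, pow_mul, hz.pow_eq_one, one_pow, one_mul]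

theorem carry_spec {p : ℕ} [NeZero p] (χ : Gq → ZMod p) (g h : Gq)
    (hadd : χ (g * h) = χ g + χ h) :
    (χ g).val + (χ h).val = (χ (g * h)).val + p * carry p χ g h := by
  rw [hadd, ZMod.val_add, carry]
  exact (Nat.mod_add_div _ _).symm

theorem eta_pow {p : ℕ} (hp : 0 < p) (χ : Gq → ZMod p) (b ξ : Qb) (τ : Gq) :
    eta p χ b ξ τ ^ p = τ ξ / (ξ * b ^ (χ τ).val) := rootP_pow hp _

theorem eta_ne_zero {p : ℕ} (hp : 0 < p) (χ : Gq → ZMod p) {b ξ : Qb} (hb : b ≠ 0) (hξ : ξ ≠ 0)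
    (τ : Gq) : eta p χ b ξ τ ≠ 0 := by
  intro h0
  have h1 := eta_pow hp χ b ξ τ
  rw [h0, zero_pow hp.ne'] at h1
  have h2 : τ ξ ≠ 0 := by rw [Ne, map_eq_zero]; exact hξ
  exact (div_ne_zero h2 (mul_ne_zero hξ (pow_ne_zero _ hb))) h1.symm

/-- **(BrS), algebraic half.**  See the module docstring. -/
theorem brS_of_xi {p : ℕ} [Fact p.Prime] (S : Finset Nat.Primes)
    (K : IntermediateField ℚ Qb) (hK : K.IsUnramifiedOutside S) (ζ : K)
    (hζ : IsPrimitiveRoot ζ p)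
    (χ : Gq → ZMod p)
    (hχadd : ∀ g ∈ K.fixingSubgroup, ∀ h ∈ K.fixingSubgroup, χ (g * h) = χ g + χ h)
    (M : IntermediateField ℚ Qb) (hM : M.IsUnramifiedOutside S)
    (hχM : ∀ g s, s ∈ M.fixingSubgroup → χ (g * s) = χ g)
    (b : K) (hb : b ≠ 0) (β : Qb) (hβ : β ^ p = (b : Qb))
    (κ : Gq → ZMod p) (hκ : ∀ s ∈ K.fixingSubgroup, s β = (ζ : Qb) ^ (κ s).val * β)
    (ξ : Qb) (hξ : ξ ≠ 0) (M₁ : IntermediateField ℚ Qb) (hM₁ : M₁.IsUnramifiedOutside S)
    (hξM : ξ ∈ M₁)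
    (hroot : ∀ τ ∈ K.fixingSubgroup, ∃ e ∈ M₁, e ^ p = τ ξ / (ξ * (b : Qb) ^ (χ τ).val)) :
    ∃ (y : Gq → Gq → ZMod p) (u : Gq → ZMod p),
      (∃ F : IntermediateField ℚ Qb, F.IsUnramifiedOutside S ∧
        ∀ g ∈ K.fixingSubgroup, ∀ h ∈ K.fixingSubgroup,
        ∀ s ∈ F.fixingSubgroup, ∀ t ∈ F.fixingSubgroup, y (g * s) (h * t) = y g h) ∧
      (∃ F' : IntermediateField ℚ Qb, FiniteDimensional ℚ F' ∧
        ∀ g s, s ∈ F'.fixingSubgroup → u (g * s) = u g) ∧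
      ∀ g ∈ K.fixingSubgroup, ∀ h ∈ K.fixingSubgroup,
        y g h = κ g * χ h + (u g + u h - u (g * h)) := by
  classical
  have hp : p.Prime := Fact.out
  have hp0 : 0 < p := hp.pos
  have : NeZero p := ⟨hp.ne_zero⟩
  set z : Qb := (ζ : Qb) with hz
  have hzprim : IsPrimitiveRoot z p := hζ.map_of_injective (f := K.val) K.val.injective
  have hz0 : z ≠ 0 := hzprim.ne_zero hp.ne_zero
  set b' : Qb := (b : Qb) with hb'def
  have hb' : b' ≠ 0 := by simpa [hb'def] using hb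
  have hβ0 : β ≠ 0 := by
    rintro rfl
    rw [zero_pow hp0.ne'] at hβ
    exact hb' hβ.symm
  have hfixz : ∀ τ ∈ K.fixingSubgroup, τ z = z := fun τ hτ =>
    (IntermediateField.mem_fixingSubgroup_iff K τ).mp hτ z ζ.2
  have hfixb : ∀ τ ∈ K.fixingSubgroup, τ b' = b' := fun τ hτ =>
    (IntermediateField.mem_fixingSubgroup_iff K τ).mp hτ b' b.2
  have hfixpow : ∀ τ ∈ K.fixingSubgroup, ∀ w : Qb, w ^ p = 1 → τ w = w := by
    intro τ hτ w hw
    rw [dlog_spec hzprim hw, map_pow, hfixz τ hτ]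
  -- a `p`-th root of `ξ`
  obtain ⟨Ξ, hΞ⟩ := IsAlgClosed.exists_pow_nat_eq ξ hp0
  have hΞ0 : Ξ ≠ 0 := by
    rintro rfl
    rw [zero_pow hp0.ne'] at hΞ
    exact hξ hΞ.symm
  have hχ1 : χ 1 = 0 := by
    have h := hχadd 1 (one_mem _) 1 (one_mem _)
    rw [mul_one] at h
    exact left_eq_add.mp h
  -- abbreviations
  set η : Gq → Qb := eta p χ b' ξ with hηdef
  have hηpow : ∀ τ, η τ ^ p = τ ξ / (ξ * b' ^ (χ τ).val) := fun τ => eta_pow hp0 χ b' ξ τ
  have hη0 : ∀ τ, η τ ≠ 0 := fun τ => eta_ne_zero hp0 χ hb' hξ τ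
  set U : Gq → Qb := UU p χ b' ξ Ξ β with hUdef
  set Y : Gq → Gq → Qb := YY p χ b' ξ with hYdef
  have hUpow : ∀ g ∈ K.fixingSubgroup, U g ^ p = 1 := by
    intro g hg
    have hgξ : g ξ ≠ 0 := by rw [Ne, map_eq_zero]; exact hξ
    show (g Ξ / (Ξ * β ^ (χ g).val * η g)) ^ p = 1
    rw [div_pow, mul_pow, mul_pow, ← map_pow, hΞ, hηpow, ← pow_mul, mul_comm (χ g).val p, pow_mul,
      hβ]
    field_simp
  have hU0 : ∀ g ∈ K.fixingSubgroup, U g ≠ 0 := by
    intro g hg h0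
    have := hUpow g hg
    rw [h0, zero_pow hp0.ne'] at this
    exact zero_ne_one this
  -- the key identity
  have hkey : ∀ g ∈ K.fixingSubgroup, ∀ h ∈ K.fixingSubgroup,
      Y g h = z ^ ((κ g).val * (χ h).val) * (U g * U h / U (g * h)) := by
    intro g hg h hh
    have hcar := carry_spec χ g h (hχadd g hg h hh)
    have hβpow : β ^ (χ g).val * β ^ (χ h).val = β ^ (χ (g * h)).val * b' ^ carry p χ g h := by
      rw [← pow_add, hcar, pow_add, pow_mul, hβ]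
    have hgΞ : g Ξ ≠ 0 := by rw [Ne, map_eq_zero]; exact hΞ0
    have hghΞ : (g * h) Ξ ≠ 0 := by rw [Ne, map_eq_zero]; exact hΞ0
    have hgη : g (η h) ≠ 0 := by rw [Ne, map_eq_zero]; exact hη0 h
    have h1 : U h = (g * h) Ξ / (g Ξ * (z ^ (κ g).val * β) ^ (χ h).val * g (η h)) := by
      have hfix : g (U h) = U h := hfixpow g hg _ (hUpow h hh)
      conv_lhs => rw [← hfix]
      show g (h Ξ / (Ξ * β ^ (χ h).val * η h)) = _
      rw [map_div₀, map_mul, map_mul, map_pow, hκ g hg, AlgEquiv.mul_apply]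
    have hbc : b' ^ carry p χ g h = β ^ (χ g).val * β ^ (χ h).val / β ^ (χ (g * h)).val := by
      rw [hβpow, mul_div_cancel_left₀ _ (pow_ne_zero _ hβ0)]
    rw [h1]
    show (b' ^ carry p χ g h)⁻¹ * η (g * h) / (η g * g (η h)) =
      z ^ ((κ g).val * (χ h).val) * (g Ξ / (Ξ * β ^ (χ g).val * η g) *
        ((g * h) Ξ / (g Ξ * (z ^ (κ g).val * β) ^ (χ h).val * g (η h))) /
        ((g * h) Ξ / (Ξ * β ^ (χ (g * h)).val * η (g * h))))
    rw [hbc]
    have hη1 := hη0 g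
    have hη2 := hη0 (g * h)
    field_simp
    ring
  -- the fields
  set F : IntermediateField ℚ Qb := K ⊔ M ⊔ M₁ with hFdef
  have hF : F.IsUnramifiedOutside S := (hK.sup hM).sup hM₁
  have hFK : ∀ s ∈ F.fixingSubgroup, s ∈ K.fixingSubgroup := fun s hs =>
    IntermediateField.fixingSubgroup_antitone (le_sup_left.trans le_sup_left) hs
  have hFM : ∀ s ∈ F.fixingSubgroup, s ∈ M.fixingSubgroup := fun s hs =>
    IntermediateField.fixingSubgroup_antitone (le_sup_right.trans le_sup_left) hs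
  have hFM₁ : ∀ s ∈ F.fixingSubgroup, ∀ x ∈ M₁, s x = x := fun s hs x hx =>
    (IntermediateField.mem_fixingSubgroup_iff M₁ s).mp
      (IntermediateField.fixingSubgroup_antitone le_sup_right hs) x hx
  -- `s ∈ Fix F` fixes `τ ξ` and `η τ` for `τ ∈ G_K`
  have hsη : ∀ s ∈ F.fixingSubgroup, ∀ τ ∈ K.fixingSubgroup, s (η τ) = η τ := by
    intro s hs τ hτ
    obtain ⟨e, heM, he⟩ := hroot τ hτ
    have he0 : e ≠ 0 := by
      rintro rfl
      rw [zero_pow hp0.ne', ← hηpow τ] at he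
      exact pow_ne_zero _ (hη0 τ) he.symm
    have hw : (η τ / e) ^ p = 1 := by
      rw [div_pow, hηpow, he, div_self]
      rw [← he]
      exact pow_ne_zero _ he0
    have h1 : s (η τ / e) = η τ / e := hfixpow s (hFK s hs) _ hw
    rw [map_div₀, hFM₁ s hs e heM] at h1
    exact (div_left_inj' he0).mp h1
  have hsτξ : ∀ s ∈ F.fixingSubgroup, ∀ τ ∈ K.fixingSubgroup, s (τ ξ) = τ ξ := by
    intro s hs τ hτ
    have h1 : τ ξ = η τ ^ p * (ξ * b' ^ (χ τ).val) := by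
      rw [hηpow, div_mul_cancel₀ _ (mul_ne_zero hξ (pow_ne_zero _ hb'))]
    rw [h1, map_mul, map_pow, hsη s hs τ hτ, map_mul, map_pow, hFM₁ s hs ξ hξM,
      hfixb s (hFK s hs)]
  have hχs : ∀ s ∈ F.fixingSubgroup, χ s = 0 := by
    intro s hs
    have h := hχM 1 s (hFM s hs)
    rwa [one_mul, hχ1] at h
  have hηs : ∀ g : Gq, ∀ s ∈ F.fixingSubgroup, η (g * s) = η g := by
    intro g s hs
    show rootP p ((g * s) ξ / (ξ * b' ^ (χ (g * s)).val)) = rootP p (g ξ / (ξ * b' ^ (χ g).val))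
    rw [AlgEquiv.mul_apply, hFM₁ s hs ξ hξM, hχM g s (hFM s hs)]
  refine ⟨fun g h => dlog p z (Y g h), fun g => dlog p z (U g), ⟨F, hF, ?_⟩, ?_, ?_⟩
  · -- `y` has level `S`
    intro g hg h hh s hs t ht
    have hsK := hFK s hs
    have htK := hFK t ht
    have e1 : χ (g * s) = χ g := hχM g s (hFM s hs)
    have e2 : χ (h * t) = χ h := hχM h t (hFM t ht)
    have e3 : χ (g * s * (h * t)) = χ (g * h) := by
      rw [hχadd _ (mul_mem hg hsK) _ (mul_mem hh htK), e1, e2, hχadd g hg h hh]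
    have e4 : η (g * s * (h * t)) = η (g * h) := by
      show rootP p ((g * s * (h * t)) ξ / (ξ * b' ^ (χ (g * s * (h * t))).val)) =
        rootP p ((g * h) ξ / (ξ * b' ^ (χ (g * h)).val))
      rw [e3]
      have : (g * s * (h * t)) ξ = (g * h) ξ := by
        rw [AlgEquiv.mul_apply, AlgEquiv.mul_apply, AlgEquiv.mul_apply, AlgEquiv.mul_apply,
          hFM₁ t ht ξ hξM, hsτξ s hs h hh]
      rw [this]
    have e5 : (g * s) (η (h * t)) = g (η h) := by
      rw [hηs h t ht, AlgEquiv.mul_apply, hsη s hs h hh]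
    show dlog p z (YY p χ b' ξ (g * s) (h * t)) = dlog p z (YY p χ b' ξ g h)
    have e6 : carry p χ (g * s) (h * t) = carry p χ g h := by
      unfold carry
      rw [e1, e2]
    unfold YY
    rw [e6]
    show dlog p z ((b' ^ carry p χ g h)⁻¹ * η (g * s * (h * t)) / (η (g * s) * (g * s) (η (h * t))))
      = dlog p z ((b' ^ carry p χ g h)⁻¹ * η (g * h) / (η g * g (η h)))
    rw [e4, e5, hηs g s hs]
  · -- `u` is level-constant
    have hintΞ : IsIntegral ℚ Ξ := ((AlgebraicClosure.isAlgebraic ℚ).isAlgebraic Ξ).isIntegral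
    have hintβ : IsIntegral ℚ β := ((AlgebraicClosure.isAlgebraic ℚ).isAlgebraic β).isIntegral
    have := hF.1
    have : FiniteDimensional ℚ ℚ⟮Ξ⟯ := IntermediateField.adjoin.finiteDimensional hintΞ
    have : FiniteDimensional ℚ ℚ⟮β⟯ := IntermediateField.adjoin.finiteDimensional hintβ
    refine ⟨F ⊔ ℚ⟮Ξ⟯ ⊔ ℚ⟮β⟯, inferInstance, fun g s hs => ?_⟩
    have hsF : s ∈ F.fixingSubgroup :=
      IntermediateField.fixingSubgroup_antitone (le_sup_left.trans le_sup_left) hs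
    have hsΞ : s Ξ = Ξ := (IntermediateField.mem_fixingSubgroup_iff _ s).mp
      (IntermediateField.fixingSubgroup_antitone (le_sup_right.trans le_sup_left) hs) Ξ
      (IntermediateField.mem_adjoin_simple_self ℚ Ξ)
    show dlog p z ((g * s) Ξ / (Ξ * β ^ (χ (g * s)).val * η (g * s))) =
      dlog p z (g Ξ / (Ξ * β ^ (χ g).val * η g))
    rw [AlgEquiv.mul_apply, hsΞ, hχM g s (hFM s hsF), hηs g s hsF]
  · -- the identity
    intro g hg h hh
    have hgh : g * h ∈ K.fixingSubgroup := mul_mem hg hh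
    show dlog p z (Y g h) = κ g * χ h + (dlog p z (U g) + dlog p z (U h) - dlog p z (U (g * h)))
    rw [hkey g hg h hh]
    have hzpow : (z ^ ((κ g).val * (χ h).val)) ^ p = 1 := by
      rw [← pow_mul, mul_comm, pow_mul, hzprim.pow_eq_one, one_pow]
    have hUU : (U g * U h) ^ p = 1 := by rw [mul_pow, hUpow g hg, hUpow h hh, one_mul]
    have hUUU : (U g * U h / U (g * h)) ^ p = 1 := by
      rw [div_pow, hUU, hUpow _ hgh, div_one]
    rw [dlog_mul hzprim hzpow hUUU, dlog_div hzprim hUU (hUpow _ hgh),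
      dlog_mul hzprim (hUpow g hg) (hUpow h hh), dlog_pow_nat hzprim]
    push_cast
    rw [ZMod.natCast_zmod_val, ZMod.natCast_zmod_val]

end Fermat.Agent.S55.Count.BrS.Cocycle
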