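import Fermat.Agent.S55.Base.Capit
import Fermat.Agent.S55.Glue.LevelGalois

/-!
# S55 / route COUNT, brick (BE)(ii) = (BrS): the descent cocycle, algebraic part

`Qb = AlgebraicClosure ℚ`, `Gq = Gal(Qb/ℚ)`, `G ≤ Gq` a subgroup (`= Gal(Qb/K)`), `z ∈ Qb` a
primitive `p`-th root of unity fixed by `G`, `χ : Gq → ZMod p` additive on `G`, `b ∈ Qbˣ` fixed by
`G`.

Input: `e : ℕ`, `ξ ∈ Qbˣ` and `η : Gq → Qb` with
`η τ ^ p = τ ξ / (ξ * b ^ (e * (χ τ).val))` for `τ ∈ G`.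

Output:
* `Y g h = η (g h) / (η g * g (η h) * b ^ (e * carry))` is a `p`-th root of unity (`Y_pow`);
* for every `β` with `β ^ p = b` and Kummer character `κ` (`s β = z ^ (κ s).val * β` on `G`),
  `Y g h = z ^ (e * κ g * χ h) * (U g * U h / U (g h))` with
  `U g = g Ξ / (Ξ * β ^ (e * (χ g).val) * η g)` a `p`-th root of unity (`Ξ ^ p = ξ`) (`Y_eq`);
* `yc g h = dlog_z (Y g h)` satisfies `yc = e • (κ ∪ χ) + d (dlog_z ∘ U)` on `G` (`yc_eq`).
-/

set_option autoImplicit false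

open scoped IntermediateField

namespace Fermat.Agent.S55.Count.BrS.H125

open Fermat.Agent.S55.Base.Capit

local notation "Qb" => AlgebraicClosure ℚ
local notation "Gq" => (AlgebraicClosure ℚ ≃ₐ[ℚ] AlgebraicClosure ℚ)

/-- The carry of the lifts `(χ g).val + (χ h).val`. -/
def carry {p : ℕ} (χ : Gq → ZMod p) (g h : Gq) : ℕ := ((χ g).val + (χ h).val) / p

theorem val_add_val_eq {p : ℕ} [NeZero p] (χ : Gq → ZMod p) (g h : Gq)
    (hgh : χ (g * h) = χ g + χ h) :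
    (χ g).val + (χ h).val = (χ (g * h)).val + p * carry χ g h := by
  rw [hgh, ZMod.val_add, carry]
  exact (Nat.mod_add_div _ _).symm

/-- The multiplicative 2-cochain. -/
noncomputable def Y {p : ℕ} (χ : Gq → ZMod p) (b : Qb) (e : ℕ) (η : Gq → Qb) (g h : Gq) : Qb :=
  η (g * h) / (η g * g (η h) * b ^ (e * carry χ g h))

/-- The multiplicative 1-cochain comparing `Y` with the cup product. -/
noncomputable def U {p : ℕ} (χ : Gq → ZMod p) (β : Qb) (e : ℕ) (Ξ : Qb) (η : Gq → Qb) (g : Gq) :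
    Qb :=
  g Ξ / (Ξ * β ^ (e * (χ g).val) * η g)

section

variable {p : ℕ} [Fact p.Prime] (G : Subgroup Gq)
  (χ : Gq → ZMod p) (hχ : ∀ g ∈ G, ∀ h ∈ G, χ (g * h) = χ g + χ h)
  (b : Qb) (hb : b ≠ 0) (hbG : ∀ g ∈ G, g b = b)
  (e : ℕ) (ξ : Qb) (hξ : ξ ≠ 0) (η : Gq → Qb)
  (hη : ∀ τ ∈ G, η τ ^ p = τ ξ / (ξ * b ^ (e * (χ τ).val)))

include hb hξ hη in
theorem eta_ne_zero {τ : Gq} (hτ : τ ∈ G) : η τ ≠ 0 := by
  have hp : p.Prime := Fact.out
  intro h0
  have h1 := hη τ hτ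
  rw [h0, zero_pow hp.ne_zero] at h1
  have h2 : τ ξ ≠ 0 := by rw [Ne, map_eq_zero]; exact hξ
  exact (div_ne_zero h2 (mul_ne_zero hξ (pow_ne_zero _ hb))) h1.symm

include hχ hb hbG hξ hη in
/-- `Y g h` is a `p`-th root of unity. -/
theorem Y_pow {g h : Gq} (hg : g ∈ G) (hh : h ∈ G) : Y χ b e η g h ^ p = 1 := by
  have hp : p.Prime := Fact.out
  have : NeZero p := ⟨hp.ne_zero⟩
  have hgξ : g ξ ≠ 0 := by rw [Ne, map_eq_zero]; exact hξ
  have hghξ : (g * h) ξ ≠ 0 := by rw [Ne, map_eq_zero]; exact hξ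
  have hc := val_add_val_eq χ g h (hχ g hg h hh)
  have hpow : b ^ (e * (χ g).val) * b ^ (e * (χ h).val)
      = b ^ (e * (χ (g * h)).val) * (b ^ (e * carry χ g h)) ^ p := by
    rw [← pow_add, ← pow_mul, ← pow_add]
    congr 1
    calc e * (χ g).val + e * (χ h).val = e * ((χ g).val + (χ h).val) := by ring
      _ = e * ((χ (g * h)).val + p * carry χ g h) := by rw [hc]
      _ = e * (χ (g * h)).val + e * carry χ g h * p := by ring
  have h1 : g (η h) ^ p = (g * h) ξ / (g ξ * b ^ (e * (χ h).val)) := by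
    rw [← map_pow, hη h hh, map_div₀, map_mul, map_pow, hbG g hg, AlgEquiv.mul_apply]
  unfold Y
  rw [div_pow, mul_pow, mul_pow, hη (g * h) (mul_mem hg hh), hη g hg, h1]
  have hb1 := pow_ne_zero (e * (χ g).val) hb
  have hb2 := pow_ne_zero (e * (χ h).val) hb
  have hb3 := pow_ne_zero (e * (χ (g * h)).val) hb
  have hb4 := pow_ne_zero (e * carry χ g h) hb
  rw [div_eq_one_iff_eq (by positivity)]
  field_simp
  linear_combination hpow

variable (z : Qb) (hz : IsPrimitiveRoot z p) (hzG : ∀ g ∈ G, g z = z)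
  (β : Qb) (hβ : β ^ p = b) (κ : Gq → ZMod p)
  (hκ : ∀ s ∈ G, s β = z ^ (κ s).val * β) (Ξ : Qb) (hΞ : Ξ ^ p = ξ)

include hb hξ hη hβ hΞ in
/-- `U g` is a `p`-th root of unity. -/
theorem U_pow {g : Gq} (hg : g ∈ G) : U χ β e Ξ η g ^ p = 1 := by
  have hgξ : g ξ ≠ 0 := by rw [Ne, map_eq_zero]; exact hξ
  have hη0 := eta_ne_zero G χ b hb e ξ hξ η hη hg
  unfold U
  rw [div_pow, mul_pow, mul_pow, ← map_pow, hΞ, ← pow_mul, mul_comm (e * (χ g).val) p, pow_mul,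
    hβ, hη g hg]
  have hb1 := pow_ne_zero (e * (χ g).val) hb
  field_simp

include hz hzG in
/-- Elements of `G` fix the `p`-th roots of unity. -/
theorem fix_of_pow_eq_one {g : Gq} (hg : g ∈ G) {w : Qb} (hw : w ^ p = 1) : g w = w := by
  have hp : p.Prime := Fact.out
  have : NeZero p := ⟨hp.ne_zero⟩
  rw [dlog_spec hz hw, map_pow, hzG g hg]

include hχ hb hξ hη hz hzG hβ hκ hΞ in
/-- **Comparison with the cup product**, multiplicative form. -/
theorem Y_eq {g h : Gq} (hg : g ∈ G) (hh : h ∈ G) :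
    Y χ b e η g h = z ^ (e * (κ g).val * (χ h).val) *
      (U χ β e Ξ η g * U χ β e Ξ η h / U χ β e Ξ η (g * h)) := by
  have hp : p.Prime := Fact.out
  have : NeZero p := ⟨hp.ne_zero⟩
  have hβ0 : β ≠ 0 := by
    intro h0
    rw [h0, zero_pow hp.ne_zero] at hβ
    exact hb hβ.symm
  have hΞ0 : Ξ ≠ 0 := by
    intro h0
    rw [h0, zero_pow hp.ne_zero] at hΞ
    exact hξ hΞ.symm
  have hz0 : z ≠ 0 := hz.ne_zero hp.ne_zero
  have hgΞ : g Ξ ≠ 0 := by rw [Ne, map_eq_zero]; exact hΞ0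
  have hghΞ : (g * h) Ξ ≠ 0 := by rw [Ne, map_eq_zero]; exact hΞ0
  have hηg := eta_ne_zero G χ b hb e ξ hξ η hη hg
  have hηh := eta_ne_zero G χ b hb e ξ hξ η hη hh
  have hηgh := eta_ne_zero G χ b hb e ξ hξ η hη (mul_mem hg hh)
  have hgηh : g (η h) ≠ 0 := by rw [Ne, map_eq_zero]; exact hηh
  have hc := val_add_val_eq χ g h (hχ g hg h hh)
  -- `U h` is fixed by `g`
  have hUh : U χ β e Ξ η h = (g * h) Ξ / (g Ξ * (z ^ (κ g).val * β) ^ (e * (χ h).val) * g (η h)) := by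
    have h1 := fix_of_pow_eq_one G z hz hzG hg (U_pow G χ b hb e ξ hξ η hη β hβ Ξ hΞ hh)
    rw [← h1]
    unfold U
    rw [map_div₀, map_mul, map_mul, map_pow, hκ g hg, AlgEquiv.mul_apply]
  have hpow : β ^ (e * (χ g).val) * β ^ (e * (χ h).val)
      = β ^ (e * (χ (g * h)).val) * b ^ (e * carry χ g h) := by
    rw [← hβ, ← pow_mul, ← pow_add, ← pow_add]
    congr 1
    calc e * (χ g).val + e * (χ h).val = e * ((χ g).val + (χ h).val) := by ring
      _ = e * ((χ (g * h)).val + p * carry χ g h) := by rw [hc]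
      _ = e * (χ (g * h)).val + p * (e * carry χ g h) := by ring
  have hzpow : (z ^ (κ g).val * β) ^ (e * (χ h).val)
      = z ^ (e * (κ g).val * (χ h).val) * β ^ (e * (χ h).val) := by
    rw [mul_pow, ← pow_mul]
    congr 2
    ring
  rw [hUh, hzpow]
  unfold Y U
  have hb1 := pow_ne_zero (e * (χ g).val) hβ0
  have hb2 := pow_ne_zero (e * (χ h).val) hβ0
  have hb3 := pow_ne_zero (e * (χ (g * h)).val) hβ0
  have hb4 := pow_ne_zero (e * carry χ g h) hb
  have hz1 := pow_ne_zero (e * (κ g).val * (χ h).val) hz0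
  rw [div_eq_iff (by positivity)]
  field_simp
  linear_combination hpow

end

/-- `dlog` of a power of the base. -/
theorem dlog_pow_nat {p : ℕ} [NeZero p] {z : Qb} (hz : IsPrimitiveRoot z p) (n : ℕ) :
    dlog p z (z ^ n) = (n : ZMod p) := by
  apply dlog_eq hz
  rw [ZMod.val_natCast]
  exact pow_eq_pow_mod n hz.pow_eq_one

section

variable {p : ℕ} [Fact p.Prime] (G : Subgroup Gq)
  (χ : Gq → ZMod p) (hχ : ∀ g ∈ G, ∀ h ∈ G, χ (g * h) = χ g + χ h)
  (b : Qb) (hb : b ≠ 0)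
  (e : ℕ) (ξ : Qb) (hξ : ξ ≠ 0) (η : Gq → Qb)
  (hη : ∀ τ ∈ G, η τ ^ p = τ ξ / (ξ * b ^ (e * (χ τ).val)))
  (z : Qb) (hz : IsPrimitiveRoot z p) (hzG : ∀ g ∈ G, g z = z)
  (β : Qb) (hβ : β ^ p = b) (κ : Gq → ZMod p)
  (hκ : ∀ s ∈ G, s β = z ^ (κ s).val * β) (Ξ : Qb) (hΞ : Ξ ^ p = ξ)

include hχ hb hξ hη hz hzG hβ hκ hΞ in
/-- **Comparison with the cup product**, additive form:
`dlog Y = e • (κ ∪ χ) + d (dlog U)` on `G`. -/
theorem dlog_Y_eq {g h : Gq} (hg : g ∈ G) (hh : h ∈ G) :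
    dlog p z (Y χ b e η g h) = (e : ZMod p) * κ g * χ h +
      (dlog p z (U χ β e Ξ η g) + dlog p z (U χ β e Ξ η h)
        - dlog p z (U χ β e Ξ η (g * h))) := by
  have hp : p.Prime := Fact.out
  have : NeZero p := ⟨hp.ne_zero⟩
  have hUg := U_pow G χ b hb e ξ hξ η hη β hβ Ξ hΞ hg
  have hUh := U_pow G χ b hb e ξ hξ η hη β hβ Ξ hΞ hh
  have hUgh := U_pow G χ b hb e ξ hξ η hη β hβ Ξ hΞ (mul_mem hg hh)
  have hzn : (z ^ (e * (κ g).val * (χ h).val)) ^ p = 1 := by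
    rw [← pow_mul, mul_comm, pow_mul, hz.pow_eq_one, one_pow]
  have hUU : (U χ β e Ξ η g * U χ β e Ξ η h) ^ p = 1 := by rw [mul_pow, hUg, hUh, one_mul]
  have hUUU : (U χ β e Ξ η g * U χ β e Ξ η h / U χ β e Ξ η (g * h)) ^ p = 1 := by
    rw [div_pow, hUU, hUgh, div_one]
  rw [Y_eq G χ hχ b hb e ξ hξ η hη z hz hzG β hβ κ hκ Ξ hΞ hg hh, dlog_mul hz hzn hUUU,
    dlog_div hz hUU hUgh, dlog_mul hz hUg hUh, dlog_pow_nat hz]
  push_cast
  rw [ZMod.natCast_zmod_val, ZMod.natCast_zmod_val]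

end

/-- Kummer characters are additive on `G`. -/
theorem kummer_add {p : ℕ} [Fact p.Prime] (G : Subgroup Gq) (z : Qb) (hz : IsPrimitiveRoot z p)
    (hzG : ∀ g ∈ G, g z = z) (β : Qb) (hβ0 : β ≠ 0) (κ : Gq → ZMod p)
    (hκ : ∀ s ∈ G, s β = z ^ (κ s).val * β) {g h : Gq} (hg : g ∈ G) (hh : h ∈ G) :
    κ (g * h) = κ g + κ h := by
  have hp : p.Prime := Fact.out
  have : NeZero p := ⟨hp.ne_zero⟩
  have h1 : z ^ ((κ g).val + (κ h).val) = z ^ (κ (g * h)).val := by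
    have h2 : (g * h) β = z ^ (κ h).val * (z ^ (κ g).val * β) := by
      rw [AlgEquiv.mul_apply, hκ h hh, map_mul, map_pow, hzG g hg, hκ g hg]
    rw [hκ (g * h) (mul_mem hg hh)] at h2
    have h3 : z ^ (κ (g * h)).val * β = z ^ ((κ g).val + (κ h).val) * β := by
      rw [h2, pow_add]; ring
    exact (mul_right_cancel₀ hβ0 h3).symm
  have h4 := Fermat.Agent.CFT.Kummer.natCast_eq_of_pow_eq_pow_val hz _ _ h1
  rw [← h4]
  push_cast
  rw [ZMod.natCast_zmod_val, ZMod.natCast_zmod_val]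

open groupCohomology in
/-- **(BrS), algebraic half.**  From `ξ` and a level-`S` choice `η` of `p`-th roots of
`τ ξ / (ξ b ^ (e χ(τ)))`, `τ ∈ G_K` (`e` prime to `p`), a level-`S` `2`-cocycle `y` on `G_K` with
`y = κ_b ∪ χ + d u` on `G_K`, `u` level-constant, for every Kummer character `κ_b` of `b`. -/
theorem exists_cocycle_of_data {p : ℕ} [Fact p.Prime] (S : Finset Nat.Primes)
    (K : IntermediateField ℚ Qb) (ζ : K) (hζ : IsPrimitiveRoot ζ p)
    (χ : Gq → ZMod p)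
    (hχ : ∀ g ∈ K.fixingSubgroup, ∀ h ∈ K.fixingSubgroup, χ (g * h) = χ g + χ h)
    (b : K) (hb : b ≠ 0)
    (e : ℕ) (he : Nat.Coprime e p) (ξ : Qb) (hξ : ξ ≠ 0) (η : Gq → Qb)
    (hη : ∀ τ ∈ K.fixingSubgroup, η τ ^ p = τ ξ / (ξ * (b : Qb) ^ (e * (χ τ).val)))
    (F : IntermediateField ℚ Qb) (hF : F.IsUnramifiedOutside S) [Normal ℚ F] (hKF : K ≤ F)
    (hχF : ∀ g s, s ∈ F.fixingSubgroup → χ (g * s) = χ g)
    (hηF : ∀ τ s, s ∈ F.fixingSubgroup → η (τ * s) = η τ)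
    (hηmem : ∀ τ ∈ K.fixingSubgroup, η τ ∈ F) :
    ∃ y : Gq × Gq → ZMod p,
      IsLevelConstantS₂ S y ∧
      (∀ g ∈ K.fixingSubgroup, ∀ h ∈ K.fixingSubgroup, ∀ k ∈ K.fixingSubgroup,
        y (h, k) - y (g * h, k) + y (g, h * k) - y (g, h) = 0) ∧
      ∀ (β : Qb) (κ : Gq → ZMod p), β ^ p = (b : Qb) →
        (∀ s ∈ K.fixingSubgroup, s β = (ζ : Qb) ^ (κ s).val * β) →
        ∃ u : Gq → ZMod p,
          (∃ F' : IntermediateField ℚ Qb, FiniteDimensional ℚ F' ∧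
            ∀ g s, s ∈ F'.fixingSubgroup → u (g * s) = u g) ∧
          ∀ g ∈ K.fixingSubgroup, ∀ h ∈ K.fixingSubgroup,
            y (g, h) = κ g * χ h + (u g + u h - u (g * h)) := by
  classical
  have hp : p.Prime := Fact.out
  have : NeZero p := ⟨hp.ne_zero⟩
  set G : Subgroup Gq := K.fixingSubgroup with hG
  set z : Qb := (ζ : Qb) with hzdef
  have hz : IsPrimitiveRoot z p := hζ.map_of_injective (f := K.val) K.val.injective
  have hzG : ∀ g ∈ G, g z = z := fun g hg =>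
    (IntermediateField.mem_fixingSubgroup_iff K g).mp hg z ζ.2
  have hb' : (b : Qb) ≠ 0 := by simpa using hb
  have hbG : ∀ g ∈ G, g (b : Qb) = b := fun g hg =>
    (IntermediateField.mem_fixingSubgroup_iff K g).mp hg b b.2
  have hFG : F.fixingSubgroup ≤ G := IntermediateField.fixingSubgroup_antitone hKF
  have he0 : (e : ZMod p) ≠ 0 := by
    rw [Ne, ZMod.natCast_eq_zero_iff]
    intro hdvd
    have h1 : p ∣ Nat.gcd e p := Nat.dvd_gcd hdvd dvd_rfl
    rw [he] at h1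
    exact hp.one_lt.ne' (Nat.dvd_one.mp h1)
  -- the cocycle
  let y : Gq × Gq → ZMod p := fun x =>
    if x.1 ∈ G ∧ x.2 ∈ G then (e : ZMod p)⁻¹ * dlog p z (Y χ (b : Qb) e η x.1 x.2) else 0
  have hy : ∀ g ∈ G, ∀ h ∈ G, y (g, h) = (e : ZMod p)⁻¹ * dlog p z (Y χ (b : Qb) e η g h) := by
    intro g hg h hh
    show (if g ∈ G ∧ h ∈ G then _ else _) = _
    rw [if_pos ⟨hg, hh⟩]
  -- comparison
  have hcomp : ∀ (β : Qb) (κ : Gq → ZMod p), β ^ p = (b : Qb) →
      (∀ s ∈ G, s β = z ^ (κ s).val * β) →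
      ∃ u : Gq → ZMod p,
        (∃ F' : IntermediateField ℚ Qb, FiniteDimensional ℚ F' ∧
          ∀ g s, s ∈ F'.fixingSubgroup → u (g * s) = u g) ∧
        ∀ g ∈ G, ∀ h ∈ G, y (g, h) = κ g * χ h + (u g + u h - u (g * h)) := by
    intro β κ hβ hκ
    set Ξ : Qb := rootP p ξ with hΞdef
    have hΞ : Ξ ^ p = ξ := rootP_pow hp.pos ξ
    refine ⟨fun g => (e : ZMod p)⁻¹ * dlog p z (U χ β e Ξ η g), ?_, ?_⟩
    · have := hF.1
      refine ⟨(F⟮Ξ⟯).restrictScalars ℚ,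
        Fermat.Agent.CFT.Kummer.finiteDimensional_adjoin_simple F Ξ, ?_⟩
      intro g s hs
      have hsF : s ∈ F.fixingSubgroup :=
        Fermat.Agent.CFT.Kummer.fixingSubgroup_adjoin_simple_le F Ξ hs
      have hsΞ : s Ξ = Ξ :=
        Fermat.Agent.CFT.Kummer.apply_eq_of_mem_fixingSubgroup_adjoin_simple F Ξ s hs
      show (e : ZMod p)⁻¹ * dlog p z (U χ β e Ξ η (g * s)) = (e : ZMod p)⁻¹ * dlog p z (U χ β e Ξ η g)
      have hU : U χ β e Ξ η (g * s) = U χ β e Ξ η g := by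
        unfold U
        rw [AlgEquiv.mul_apply, hsΞ, hχF g s hsF, hηF g s hsF]
      rw [hU]
    · intro g hg h hh
      rw [hy g hg h hh, dlog_Y_eq G χ hχ (b : Qb) hb' e ξ hξ η hη z hz hzG β hβ κ hκ Ξ hΞ hg hh]
      show _ = κ g * χ h + ((e : ZMod p)⁻¹ * dlog p z (U χ β e Ξ η g) +
        (e : ZMod p)⁻¹ * dlog p z (U χ β e Ξ η h) - (e : ZMod p)⁻¹ * dlog p z (U χ β e Ξ η (g * h)))
      have h1 : (e : ZMod p)⁻¹ * ((e : ZMod p) * κ g * χ h) = κ g * χ h := by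
        rw [mul_assoc, inv_mul_cancel_left₀ he0]
      rw [mul_add, h1]
      ring
  refine ⟨y, ?_, ?_, hcomp⟩
  · -- level `S`
    refine ⟨F, hF, ?_⟩
    intro g g' s s' hs hs'
    have hmem : ∀ a t : Gq, t ∈ F.fixingSubgroup → (a * t ∈ G ↔ a ∈ G) := by
      intro a t ht
      constructor
      · intro h
        have := mul_mem h (inv_mem (hFG ht))
        rwa [mul_inv_cancel_right] at this
      · intro h
        exact mul_mem h (hFG ht)
    show (if g * s ∈ G ∧ g' * s' ∈ G then _ else _) = (if g ∈ G ∧ g' ∈ G then _ else _)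
    by_cases hgg : g ∈ G ∧ g' ∈ G
    · rw [if_pos hgg, if_pos ⟨(hmem g s hs).mpr hgg.1, (hmem g' s' hs').mpr hgg.2⟩]
      congr 2
      -- `Y` is level-constant
      have hconj : g'⁻¹ * s * g' ∈ F.fixingSubgroup := by
        have := Glue.conj_mem_fixingSubgroup F hs g'⁻¹
        rwa [inv_inv] at this
      have hprod : g * s * (g' * s') = g * g' * (g'⁻¹ * s * g' * s') := by group
      have h1 : η (g * s * (g' * s')) = η (g * g') := by
        rw [hprod]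
        exact hηF _ _ (mul_mem hconj hs')
      have h2 : η (g * s) = η g := hηF g s hs
      have h3 : (g * s) (η (g' * s')) = g (η g') := by
        rw [hηF g' s' hs', AlgEquiv.mul_apply]
        congr 1
        exact (IntermediateField.mem_fixingSubgroup_iff F s).mp hs _ (hηmem g' hgg.2)
      have h4 : carry χ (g * s) (g' * s') = carry χ g g' := by
        unfold carry
        rw [hχF g s hs, hχF g' s' hs']
      unfold Y
      rw [h1, h2, h3, h4]
    · have hgg' : ¬ (g * s ∈ G ∧ g' * s' ∈ G) := by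
        rintro ⟨h1, h2⟩
        exact hgg ⟨(hmem g s hs).mp h1, (hmem g' s' hs').mp h2⟩
      rw [if_neg hgg, if_neg hgg']
  · -- cocycle
    set β : Qb := rootP p (b : Qb) with hβdef
    have hβ : β ^ p = (b : Qb) := rootP_pow hp.pos _
    have hβ0 : β ≠ 0 := by
      intro h0
      rw [h0, zero_pow hp.ne_zero] at hβ
      exact hb' hβ.symm
    let κ : Gq → ZMod p := fun s => dlog p z (s β / β)
    have hκ : ∀ s ∈ G, s β = z ^ (κ s).val * β := by
      intro s hs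
      have h1 : (s β / β) ^ p = 1 := by
        rw [div_pow, ← map_pow, hβ, hbG s hs, div_self hb']
      have h2 := dlog_spec hz h1
      rw [← h2, div_mul_cancel₀ _ hβ0]
    obtain ⟨u, -, hu⟩ := hcomp β κ hβ hκ
    intro g hg h hh k hk
    have hκadd : κ (g * h) = κ g + κ h := kummer_add G z hz hzG β hβ0 κ hκ hg hh
    rw [hu h hh k hk, hu (g * h) (mul_mem hg hh) k hk, hu g hg (h * k) (mul_mem hh hk),
      hu g hg h hh, hκadd, hχ h hh k hk, mul_assoc g h k]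
    ring

end Fermat.Agent.S55.Count.BrS.H125
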