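import Mathlib
import Fermat.Agent.S55.Count.BrS.Cap

/-!
# (BrS) layer 3: the element `ξ` (arithmetic half of the descent cocycle)

`K ≤ Qb` finite, unramified outside `S ∋ p`; `χ : G_K → ZMod p` a character of level `S`;
`b ∈ Kˣ` such that at every valuation subring `A` of `Qb` over a prime `q ∉ S` either
`p ∣ ord_A b` or `χ` vanishes on `D_A ∩ G_K` (`b` is a local norm from the field of `χ`).

`exists_xi`: there are a finite extension `M₁` of `ℚ` unramified outside `S` and `ξ ∈ M₁ˣ`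
such that for every `τ ∈ G_K` the element `τ ξ / (ξ · b ^ χ~(τ))` is a `p`-th power in `M₁`.
This is literally the hypothesis `(ξ, M₁, hroot)` of `Cocycle.brS_of_xi`.

Proof.  `B(A) := ord_A b mod p` is `G_K`-invariant.  Choose a representative `rep(A)` of every
`G_K`-orbit of valuation subrings and `τ_A ∈ G_K` with `τ_A • A = rep(A)`; put
`F(A) := χ(τ_A) · B(A)`.  It is well defined up to the choice exactly because `χ = 0` on
`D_A ∩ G_K` whenever `B(A) ≠ 0`, it satisfies `F(ρ⁻¹ • A) = F(A) + χ(ρ) B(A)` for `ρ ∈ G_K`,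
only depends on the prime of `M := K · M₀` induced by `A`, and is supported on the primes
dividing `b`.  By (CAP-F) `F = ord ξ mod p` for some `ξ`; then `τ ξ / (ξ b ^ χ~(τ))` has order
`≡ 0` at every `A` outside `S`, so its `p`-th roots generate an extension unramified outside
`S` (Kummer criterion `inertia_fixes_root`).
-/

set_option autoImplicit false
set_option linter.unusedSectionVars false

open scoped NumberField IntermediateField Pointwise
open IsDedekindDomain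

namespace Fermat.Agent.S55.Count.BrS

local notation "Qb" => AlgebraicClosure ℚ
local notation "Gq" => (AlgebraicClosure ℚ ≃ₐ[ℚ] AlgebraicClosure ℚ)

open Fermat.Agent.S14.Wiring.ValRing

local instance isAlgebraicQb_xi : Algebra.IsAlgebraic ℚ (AlgebraicClosure ℚ) :=
  AlgebraicClosure.isAlgebraic ℚ
local instance isAlgClosureQb_xi : IsAlgClosure ℚ (AlgebraicClosure ℚ) :=
  ⟨inferInstance, inferInstance⟩
local instance normalQb_xi : Normal ℚ (AlgebraicClosure ℚ) :=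
  IsAlgClosure.normal ℚ (AlgebraicClosure ℚ)

/-- A valuation subring lies over at most one prime number. -/
theorem eq_of_liesOverPrime {A : ValuationSubring Qb} {q q' : ℕ} (hq : q.Prime) (hq' : q'.Prime)
    (hA : A.LiesOverPrime q) (hA' : A.LiesOverPrime q') : q = q' := by
  by_contra hne
  have hcop : IsCoprime (q : ℤ) (q' : ℤ) :=
    Nat.isCoprime_iff_coprime.mpr ((Nat.coprime_primes hq hq').mpr hne)
  obtain ⟨a, b, hab⟩ := hcop
  have hone : (1 : Qb) = (a : Qb) * (q : Qb) + (b : Qb) * (q' : Qb) := by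
    have := congrArg (fun z : ℤ => (z : Qb)) hab
    simp only [Int.cast_add, Int.cast_mul, Int.cast_natCast, Int.cast_one] at this
    exact this.symm
  have hint : ∀ z : ℤ, A.valuation (z : Qb) ≤ 1 := fun z =>
    (A.valuation_le_one_iff _).mpr (intCast_mem A z)
  have hvq : A.valuation (q : Qb) < 1 := A.mem_nonunits_iff.mp hA
  have hvq' : A.valuation (q' : Qb) < 1 := A.mem_nonunits_iff.mp hA'
  have hlt : A.valuation (1 : Qb) < 1 := by
    rw [hone]
    refine A.valuation.map_add_lt ?_ ?_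
    · rw [map_mul]
      calc A.valuation (a : Qb) * A.valuation (q : Qb) ≤ 1 * A.valuation (q : Qb) := by
            gcongr
            exact hint a
        _ < 1 := by rw [one_mul]; exact hvq
    · rw [map_mul]
      calc A.valuation (b : Qb) * A.valuation (q' : Qb) ≤ 1 * A.valuation (q' : Qb) := by
            gcongr
            exact hint b
        _ < 1 := by rw [one_mul]; exact hvq'
  rw [map_one] at hlt
  exact lt_irrefl _ hlt

/-! ### The order of `b` -/

open Classical in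
/-- The order of `b` modulo `p` at a valuation subring outside `S` (and `0` elsewhere). -/
noncomputable def ordB (p : ℕ) (S : Finset Nat.Primes) (b : Qb) (A : ValuationSubring Qb) :
    ZMod p :=
  if h : ∃ c : ZMod p, ∃ q : Nat.Primes, q ∉ S ∧ A.LiesOverPrime (q : ℕ) ∧ OrdMod p A q b c
  then h.choose else 0

theorem ordB_spec {p : ℕ} {S : Finset Nat.Primes} {b : Qb} (hb : b ≠ 0)
    {A : ValuationSubring Qb} {q : Nat.Primes} (hq : q ∉ S) (hA : A.LiesOverPrime (q : ℕ))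
    {c : ZMod p} (hc : OrdMod p A q b c) : ordB p S b A = c := by
  have h : ∃ c : ZMod p, ∃ q : Nat.Primes, q ∉ S ∧ A.LiesOverPrime (q : ℕ) ∧ OrdMod p A q b c :=
    ⟨c, q, hq, hA, hc⟩
  rw [ordB, dif_pos h]
  obtain ⟨q', -, hA', hc'⟩ := h.choose_spec
  have hqq : (q' : ℕ) = (q : ℕ) := eq_of_liesOverPrime q'.2 q.2 hA' hA
  rw [hqq] at hc'
  exact hc'.unique hA hb hc

/-! ### Orbit representatives -/

/-- A representative of the `G_K`-orbit of a valuation subring. -/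
noncomputable def orbRep (K : IntermediateField ℚ Qb) (A : ValuationSubring Qb) :
    ValuationSubring Qb :=
  (Quotient.mk (MulAction.orbitRel (↥K.fixingSubgroup) (ValuationSubring Qb)) A).out

theorem orbRep_smul (K : IntermediateField ℚ Qb) (A : ValuationSubring Qb) {τ : Gq}
    (hτ : τ ∈ K.fixingSubgroup) : orbRep K (τ • A) = orbRep K A := by
  unfold orbRep
  congr 1
  apply Quotient.sound
  show τ • A ∈ MulAction.orbit (↥K.fixingSubgroup) A
  exact ⟨⟨τ, hτ⟩, rfl⟩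

theorem exists_smul_eq_orbRep (K : IntermediateField ℚ Qb) (A : ValuationSubring Qb) :
    ∃ τ : Gq, τ ∈ K.fixingSubgroup ∧ τ • A = orbRep K A := by
  have h : (MulAction.orbitRel (↥K.fixingSubgroup) (ValuationSubring Qb)) (orbRep K A) A :=
    Quotient.exact (Quotient.out_eq _)
  obtain ⟨g, hg⟩ := h
  exact ⟨g.1, g.2, hg⟩

/-- An element of `G_K` moving `A` to the representative of its orbit. -/
noncomputable def tauOf (K : IntermediateField ℚ Qb) (A : ValuationSubring Qb) : Gq :=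
  (exists_smul_eq_orbRep K A).choose

theorem tauOf_mem (K : IntermediateField ℚ Qb) (A : ValuationSubring Qb) :
    tauOf K A ∈ K.fixingSubgroup := (exists_smul_eq_orbRep K A).choose_spec.1

theorem tauOf_smul (K : IntermediateField ℚ Qb) (A : ValuationSubring Qb) :
    tauOf K A • A = orbRep K A := (exists_smul_eq_orbRep K A).choose_spec.2

/-- The function `F(A) = χ(τ_A) · ord_A(b)`. -/
noncomputable def FF (p : ℕ) (S : Finset Nat.Primes) (K : IntermediateField ℚ Qb)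
    (χ : Gq → ZMod p) (b : Qb) (A : ValuationSubring Qb) : ZMod p :=
  χ (tauOf K A) * ordB p S b A

/-! ### Properties of `ordB` and `FF` -/

section Props

variable {p : ℕ} [Fact p.Prime] {S : Finset Nat.Primes} {K : IntermediateField ℚ Qb}
  {χ : Gq → ZMod p} {b : K}

theorem chi_one (hχadd : ∀ g ∈ K.fixingSubgroup, ∀ h ∈ K.fixingSubgroup, χ (g * h) = χ g + χ h) :
    χ 1 = 0 := by
  have h := hχadd 1 (one_mem _) 1 (one_mem _)
  rw [mul_one] at h
  exact left_eq_add.mp h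

theorem chi_inv (hχadd : ∀ g ∈ K.fixingSubgroup, ∀ h ∈ K.fixingSubgroup, χ (g * h) = χ g + χ h)
    {g : Gq} (hg : g ∈ K.fixingSubgroup) : χ g⁻¹ = - χ g := by
  have h := hχadd g hg g⁻¹ (inv_mem hg)
  rw [mul_inv_cancel, chi_one hχadd] at h
  exact eq_neg_of_add_eq_zero_right h.symm

theorem ordB_smul (hK : K.IsUnramifiedOutside S) (hb : b ≠ 0) {q : Nat.Primes} (hq : q ∉ S)
    {A : ValuationSubring Qb} (hA : A.LiesOverPrime (q : ℕ)) {τ : Gq}
    (hτ : τ ∈ K.fixingSubgroup) : ordB p S (b : Qb) (τ • A) = ordB p S (b : Qb) A := by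
  have hb' : (b : Qb) ≠ 0 := fun h => hb (Subtype.ext h)
  obtain ⟨c, hc⟩ := exists_ordMod (p := p) hK q hq A hA (b : Qb) b.2 hb'
  rw [ordB_spec hb' hq hA hc]
  have h1 := hc.smul τ
  have h2 : τ (b : Qb) = b := (IntermediateField.mem_fixingSubgroup_iff K τ).mp hτ b b.2
  rw [h2] at h1
  exact ordB_spec hb' hq (Fermat.Agent.S55.Glue.liesOverPrime_smul hA τ) h1

theorem ordB_eq_zero_of_pow (hK : K.IsUnramifiedOutside S) (hb : b ≠ 0) {q : Nat.Primes}
    (hq : q ∉ S) {A : ValuationSubring Qb} (hA : A.LiesOverPrime (q : ℕ)) (x : K)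
    (hx : A.valuation ((b : Qb) * (x : Qb) ^ p) = 1) : ordB p S (b : Qb) A = 0 := by
  have hp : p.Prime := Fact.out
  have hb' : (b : Qb) ≠ 0 := fun h => hb (Subtype.ext h)
  have hx' : (x : Qb) ≠ 0 := by
    intro h
    rw [h, zero_pow hp.ne_zero, mul_zero, map_zero] at hx
    exact zero_ne_one hx
  obtain ⟨cb, hcb⟩ := exists_ordMod (p := p) hK q hq A hA (b : Qb) b.2 hb'
  obtain ⟨cx, hcx⟩ := exists_ordMod (p := p) hK q hq A hA (x : Qb) x.2 hx'
  have h1 : OrdMod p A q ((b : Qb) * (x : Qb) ^ p) cb := by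
    refine (hcb.mul q.2.ne_zero (hcx.pow q.2.ne_zero p)).congr ?_
    rw [ZMod.natCast_self, zero_mul, add_zero]
  have h2 : OrdMod p A q ((b : Qb) * (x : Qb) ^ p) 0 := ordMod_of_valuation_eq_one hx
  have h3 : cb = 0 := h1.unique hA (mul_ne_zero hb' (pow_ne_zero _ hx')) h2
  rw [ordB_spec hb' hq hA hcb, h3]

theorem ordB_eq_zero_of_unit (hb : b ≠ 0) {q : Nat.Primes}
    (hq : q ∉ S) {A : ValuationSubring Qb} (hA : A.LiesOverPrime (q : ℕ))
    (hx : A.valuation (b : Qb) = 1) : ordB p S (b : Qb) A = 0 := by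
  have hb' : (b : Qb) ≠ 0 := fun h => hb (Subtype.ext h)
  exact ordB_spec hb' hq hA (ordMod_of_valuation_eq_one hx)

/-- The cocycle relation of `FF`. -/
theorem FF_smul_inv (hK : K.IsUnramifiedOutside S)
    (hχadd : ∀ g ∈ K.fixingSubgroup, ∀ h ∈ K.fixingSubgroup, χ (g * h) = χ g + χ h)
    (hb : b ≠ 0)
    (hloc : ∀ q : Nat.Primes, q ∉ S → ∀ A : ValuationSubring Qb, A.LiesOverPrime (q : ℕ) →
      (∃ x : K, A.valuation ((b : Qb) * (x : Qb) ^ p) = 1) ∨
      (∀ s ∈ A.decompositionSubgroup ℚ, s ∈ K.fixingSubgroup → χ s = 0))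
    {q : Nat.Primes} (hq : q ∉ S) {A : ValuationSubring Qb} (hA : A.LiesOverPrime (q : ℕ))
    {ρ : Gq} (hρ : ρ ∈ K.fixingSubgroup) :
    FF p S K χ (b : Qb) (ρ⁻¹ • A) = FF p S K χ (b : Qb) A + χ ρ * ordB p S (b : Qb) A := by
  unfold FF
  rw [ordB_smul hK hb hq hA (inv_mem hρ)]
  by_cases h0 : ordB p S (b : Qb) A = 0
  · rw [h0, mul_zero, mul_zero, mul_zero, add_zero]
  rcases hloc q hq A hA with ⟨x, hx⟩ | hsplit
  · exact absurd (ordB_eq_zero_of_pow hK hb hq hA x hx) h0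
  set τ := tauOf K A with hτ
  set τ' := tauOf K (ρ⁻¹ • A) with hτ'
  have hτK : τ ∈ K.fixingSubgroup := tauOf_mem K A
  have hτ'K : τ' ∈ K.fixingSubgroup := tauOf_mem K _
  have h1 : τ • A = orbRep K A := tauOf_smul K A
  have h2 : τ' • ρ⁻¹ • A = orbRep K A := by
    rw [hτ', tauOf_smul K (ρ⁻¹ • A), orbRep_smul K A (inv_mem hρ)]
  have hd : (τ⁻¹ * τ' * ρ⁻¹) ∈ A.decompositionSubgroup ℚ := by
    show (τ⁻¹ * τ' * ρ⁻¹) • A = A
    rw [mul_smul, mul_smul, h2, ← h1, inv_smul_smul]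
  have hdK : (τ⁻¹ * τ' * ρ⁻¹) ∈ K.fixingSubgroup :=
    mul_mem (mul_mem (inv_mem hτK) hτ'K) (inv_mem hρ)
  have h3 := hsplit _ hd hdK
  rw [hχadd _ (mul_mem (inv_mem hτK) hτ'K) _ (inv_mem hρ), hχadd _ (inv_mem hτK) _ hτ'K,
    chi_inv hχadd hτK, chi_inv hχadd hρ] at h3
  have h4 : χ τ' = χ τ + χ ρ := by linear_combination h3
  rw [h4]
  ring

end Props

/-! ### The main statement -/

/-- The valuation of a nonzero element is `1` at all but finitely many primes. -/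
theorem finite_valuation_ne_one_aux (M : IntermediateField ℚ Qb) [NumberField M] (x : M)
    (hx : x ≠ 0) : {w : HeightOneSpectrum (𝓞 M) | w.valuation M x ≠ 1}.Finite := by
  have h1 := HeightOneSpectrum.Support.finite (𝓞 M) x
  have h2 := HeightOneSpectrum.Support.finite (𝓞 M) x⁻¹
  refine (h1.union h2).subset fun w hw => ?_
  rcases lt_trichotomy (w.valuation M x) 1 with h | h | h
  · right
    show 1 < w.valuation M x⁻¹
    rw [map_inv₀]
    exact (one_lt_inv₀ (zero_lt_iff.mpr ((Valuation.ne_zero_iff _).mpr hx))).mpr h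
  · exact absurd h hw
  · left
    exact h

/-- An automorphism fixing a set pointwise fixes the field it generates. -/
theorem mem_fixingSubgroup_adjoin (R : Set Qb) (σ : Gq) (h : ∀ e ∈ R, σ e = e) :
    σ ∈ (IntermediateField.adjoin ℚ R).fixingSubgroup := by
  rw [IntermediateField.mem_fixingSubgroup_iff]
  intro y hy
  induction hy using IntermediateField.adjoin_induction with
  | mem z hz => exact h z hz
  | algebraMap z => exact σ.commutes z
  | add a b _ _ ha hb => rw [map_add, ha, hb]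
  | inv a _ ha => rw [map_inv₀, ha]
  | mul a b _ _ ha hb => rw [map_mul, ha, hb]

/-- **(BrS), arithmetic half, strong form.**  `M₁` is a finite Galois extension of `ℚ`,
unramified outside `S`, containing `K`, the level `M₀` of `χ`, `ξ` and ALL `p`-th roots of all
the quotients `τ ξ / (ξ · b ^ χ~(τ))`, `τ ∈ G_K`. -/
theorem exists_xi_normal {p : ℕ} [Fact p.Prime] (S : Finset Nat.Primes)
    (hpS : ExtCitation.pPrime p ∈ S) (K : IntermediateField ℚ Qb)
    (hK : K.IsUnramifiedOutside S) (χ : Gq → ZMod p)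
    (hχadd : ∀ g ∈ K.fixingSubgroup, ∀ h ∈ K.fixingSubgroup, χ (g * h) = χ g + χ h)
    (M₀ : IntermediateField ℚ Qb) (hM₀ : M₀.IsUnramifiedOutside S)
    (hχM : ∀ g s, s ∈ M₀.fixingSubgroup → χ (g * s) = χ g)
    (b : K) (hb : b ≠ 0)
    (hloc : ∀ q : Nat.Primes, q ∉ S → ∀ A : ValuationSubring Qb, A.LiesOverPrime (q : ℕ) →
      (∃ x : K, A.valuation ((b : Qb) * (x : Qb) ^ p) = 1) ∨
      (∀ s ∈ A.decompositionSubgroup ℚ, s ∈ K.fixingSubgroup → χ s = 0)) :
    ∃ (ξ : Qb) (M₁ : IntermediateField ℚ Qb), ξ ≠ 0 ∧ M₁.IsUnramifiedOutside S ∧ Normal ℚ M₁ ∧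
      K ≤ M₁ ∧ M₀ ≤ M₁ ∧ ξ ∈ M₁ ∧
      ∀ τ ∈ K.fixingSubgroup, ∀ e : Qb, e ^ p = τ ξ / (ξ * (b : Qb) ^ (χ τ).val) → e ∈ M₁ := by
  classical
  have hp : p.Prime := Fact.out
  have : NeZero p := ⟨hp.ne_zero⟩
  have hb' : (b : Qb) ≠ 0 := fun h => hb (Subtype.ext h)
  -- the field `M`
  set M : IntermediateField ℚ Qb := K ⊔ M₀ with hMdef
  have hM : M.IsUnramifiedOutside S := hK.sup hM₀
  have := hM.1
  have : NumberField M := ⟨⟩
  have hKM : K ≤ M := le_sup_left
  have hfixM : ∀ s ∈ M.fixingSubgroup, s ∈ K.fixingSubgroup ∧ χ s = 0 := by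
    intro s hs
    have h1 : s ∈ K.fixingSubgroup := IntermediateField.fixingSubgroup_antitone hKM hs
    have h2 : s ∈ M₀.fixingSubgroup :=
      IntermediateField.fixingSubgroup_antitone (le_sup_right : M₀ ≤ M) hs
    have h3 := hχM 1 s h2
    rw [one_mul, chi_one hχadd] at h3
    exact ⟨h1, h3⟩
  -- the function `F`
  set F : ValuationSubring Qb → ZMod p := FF p S K χ (b : Qb) with hF
  have hFrel : ∀ (q : Nat.Primes), q ∉ S → ∀ A : ValuationSubring Qb, A.LiesOverPrime (q : ℕ) →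
      ∀ ρ ∈ K.fixingSubgroup, F (ρ⁻¹ • A) = F A + χ ρ * ordB p S (b : Qb) A :=
    fun q hq A hA ρ hρ => FF_smul_inv hK hχadd hb hloc hq hA hρ
  have hinv : ∀ q : Nat.Primes, q ∉ S → ∀ A A' : ValuationSubring Qb, A.LiesOverPrime (q : ℕ) →
      A'.LiesOverPrime (q : ℕ) → primeUnder M A = primeUnder M A' → F A = F A' := by
    intro q hq A A' hA hA' h
    obtain ⟨σ, hσ, hσA⟩ := Fermat.Agent.S55.Glue.PlacesAbove.exists_fixing_smul_eq M q.2 hA h
    obtain ⟨hσK, hσχ⟩ := hfixM σ hσ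
    have h1 := hFrel q hq A' hA' σ hσK
    rw [hσχ, zero_mul, add_zero] at h1
    rw [← h1, ← hσA, inv_smul_smul]
  -- the support
  let bM : M := ⟨(b : Qb), hKM b.2⟩
  have hbM : bM ≠ 0 := fun h => hb' (congrArg Subtype.val h)
  set T : Finset (HeightOneSpectrum (𝓞 M)) := (finite_valuation_ne_one_aux M bM hbM).toFinset
    with hT
  have hsupp : ∀ q : Nat.Primes, q ∉ S → ∀ A : ValuationSubring Qb, A.LiesOverPrime (q : ℕ) →
      F A ≠ 0 → ∃ w ∈ T, primeUnder M A = w.asIdeal := by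
    intro q hq A hA hne
    refine ⟨placeUnder M A q.2 hA, ?_, rfl⟩
    rw [hT, Set.Finite.mem_toFinset]
    show (placeUnder M A q.2 hA).valuation M bM ≠ 1
    intro h1
    have h2 : A.valuation (b : Qb) = 1 :=
      (valuation_eq_one_iff (F := M) (A := A) (v := placeUnder M A q.2 hA) rfl bM).mp h1
    apply hne
    show FF p S K χ (b : Qb) A = 0
    unfold FF
    rw [ordB_eq_zero_of_unit hb hq hA h2, mul_zero]
  obtain ⟨ξ, M₁, hξ, hM₁, hMM₁, hξM₁, hord⟩ :=
    exists_xi_of_fun (p := p) S hpS M hM F hinv T hsupp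
  -- a normal level
  obtain ⟨N, hM₁N, -, hN, hNnorm⟩ :=
    Fermat.Agent.S55.Glue.exists_normal_isUnramifiedOutside hM₁ hM₁
  have hNfin := hN.1
  have hNmap : ∀ (τ : Gq) (x : Qb), x ∈ N → τ x ∈ N := by
    intro τ x hx
    have h1 := (IntermediateField.normal_iff_forall_map_le' (F := ℚ) (K := N) (L := Qb)).mp
      hNnorm τ
    exact h1 ⟨x, hx, rfl⟩
  have hbN : (b : Qb) ∈ N := hM₁N (hMM₁ (hKM b.2))
  have hξN : ξ ∈ N := hM₁N hξM₁
  have hxN : ∀ τ : Gq, τ ξ / (ξ * (b : Qb) ^ (χ τ).val) ∈ N := fun τ =>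
    div_mem (hNmap τ ξ hξN) (mul_mem hξN (pow_mem hbN _))
  -- orders of the quotients
  have hxord : ∀ τ ∈ K.fixingSubgroup, ∀ q : Nat.Primes, q ∉ S → ∀ A : ValuationSubring Qb,
      A.LiesOverPrime (q : ℕ) → OrdMod p A q (τ ξ / (ξ * (b : Qb) ^ (χ τ).val)) 0 := by
    intro τ hτ q hq A hA
    have h1 : OrdMod p A q (τ ξ) (F (τ⁻¹ • A)) :=
      OrdMod.of_smul τ (hord q hq (τ⁻¹ • A) (Fermat.Agent.S55.Glue.liesOverPrime_smul hA τ⁻¹))
    rw [hFrel q hq A hA τ hτ] at h1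
    have h2 : OrdMod p A q ξ (F A) := hord q hq A hA
    obtain ⟨c, hc⟩ := exists_ordMod (p := p) hK q hq A hA (b : Qb) b.2 hb'
    have h3 : ordB p S (b : Qb) A = c := ordB_spec hb' hq hA hc
    have h4 : OrdMod p A q ((b : Qb) ^ (χ τ).val) (χ τ * c) := by
      refine (hc.pow q.2.ne_zero (χ τ).val).congr ?_
      rw [ZMod.natCast_zmod_val]
    refine (h1.div q.2.ne_zero (h2.mul q.2.ne_zero h4)).congr ?_
    rw [h3]
    ring
  -- the roots
  set R : Set Qb := {e | ∃ τ ∈ K.fixingSubgroup, e ^ p = τ ξ / (ξ * (b : Qb) ^ (χ τ).val)}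
    with hR
  have hRfin : R.Finite := by
    have hint : IsIntegral ℚ ξ := Algebra.IsIntegral.isIntegral ξ
    have h1 : ((minpoly ℚ ξ).rootSet Qb).Finite := Polynomial.rootSet_finite _ _
    have h2 : ∀ c : Qb, {e : Qb | e ^ p = c}.Finite := by
      intro c
      have h3 := Polynomial.finite_setOfPred_isRoot
        (Polynomial.X_pow_sub_C_ne_zero (R := Qb) hp.pos c)
      refine h3.subset fun e he => ?_
      show Polynomial.IsRoot _ e
      rw [Polynomial.IsRoot.def, Polynomial.eval_sub, Polynomial.eval_pow, Polynomial.eval_X,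
        Polynomial.eval_C]
      exact sub_eq_zero.mpr he
    have h4 : (⋃ ξ' ∈ (minpoly ℚ ξ).rootSet Qb, ⋃ i ∈ (Finset.range p : Set ℕ),
        {e : Qb | e ^ p = ξ' / (ξ * (b : Qb) ^ i)}).Finite :=
      h1.biUnion fun ξ' _ => (Finset.finite_toSet _).biUnion fun i _ => h2 _
    refine h4.subset ?_
    rintro e ⟨τ, -, he⟩
    simp only [Set.mem_iUnion]
    refine ⟨τ ξ, ?_, (χ τ).val, ?_, he⟩
    · rw [Polynomial.mem_rootSet]
      refine ⟨minpoly.ne_zero hint, ?_⟩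
      have h5 : Polynomial.aeval (τ ξ) (minpoly ℚ ξ) = τ (Polynomial.aeval ξ (minpoly ℚ ξ)) :=
        Polynomial.aeval_algHom_apply (τ : Qb →ₐ[ℚ] Qb) ξ (minpoly ℚ ξ)
      rw [h5, minpoly.aeval, map_zero]
    · simp only [Finset.coe_range, Set.mem_Iio]
      exact ZMod.val_lt _
  have hRint : ∀ e ∈ R, IsIntegral ℚ e := fun e _ => Algebra.IsIntegral.isIntegral e
  have : Finite R := hRfin.to_subtype
  have hadjfin : FiniteDimensional ℚ (IntermediateField.adjoin ℚ R) :=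
    IntermediateField.finiteDimensional_adjoin hRint
  set M₂ : IntermediateField ℚ Qb := N ⊔ IntermediateField.adjoin ℚ R with hM₂def
  have hM₂ : M₂.IsUnramifiedOutside S := by
    refine ⟨IntermediateField.finiteDimensional_sup N (IntermediateField.adjoin ℚ R),
      fun q hq A hA σ hσI => ?_⟩
    have hσN : σ ∈ N.fixingSubgroup := hN.2 q hq A hA hσI
    rw [hM₂def, IntermediateField.fixingSubgroup_sup]
    refine ⟨hσN, mem_fixingSubgroup_adjoin R σ ?_⟩
    rintro e ⟨τ, hτ, he⟩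
    obtain ⟨m, hm⟩ := (hxord τ hτ q hq A hA).exists_pow
    have hqm : ((q : ℕ) : Qb) ^ m ∈ N := zpow_mem (natCast_mem N (q : ℕ)) m
    have hcop : Nat.Coprime (q : ℕ) p := by
      have := coprime_pow_of_notMem (p := p) hpS q hq 1
      rwa [pow_one] at this
    exact Fermat.Agent.S55.Base.Capit.inertia_fixes_root N e
      (⟨τ ξ / (ξ * (b : Qb) ^ (χ τ).val), hxN τ⟩ : N) p hp.ne_zero he A q hcop hA
      (⟨((q : ℕ) : Qb) ^ m, hqm⟩ : N) hm σ hσI hσN
  obtain ⟨M₃, hM₂M₃, hMM₃, hM₃, hM₃norm⟩ :=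
    Fermat.Agent.S55.Glue.exists_normal_isUnramifiedOutside hM₂ hM
  refine ⟨ξ, M₃, hξ, hM₃, hM₃norm, hKM.trans hMM₃, (le_sup_right : M₀ ≤ M).trans hMM₃,
    hM₂M₃ ((le_sup_left : N ≤ M₂) hξN), fun τ hτ e he => ?_⟩
  exact hM₂M₃ ((le_sup_right : IntermediateField.adjoin ℚ R ≤ M₂)
    (IntermediateField.subset_adjoin ℚ R ⟨τ, hτ, he⟩))

/-- **(BrS), arithmetic half**, in the literal shape of the hypotheses `(ξ, M₁, hroot)` of
`Cocycle.brS_of_xi`. -/
theorem exists_xi {p : ℕ} [Fact p.Prime] (S : Finset Nat.Primes)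
    (hpS : ExtCitation.pPrime p ∈ S) (K : IntermediateField ℚ Qb)
    (hK : K.IsUnramifiedOutside S) (χ : Gq → ZMod p)
    (hχadd : ∀ g ∈ K.fixingSubgroup, ∀ h ∈ K.fixingSubgroup, χ (g * h) = χ g + χ h)
    (M₀ : IntermediateField ℚ Qb) (hM₀ : M₀.IsUnramifiedOutside S)
    (hχM : ∀ g s, s ∈ M₀.fixingSubgroup → χ (g * s) = χ g)
    (b : K) (hb : b ≠ 0)
    (hloc : ∀ q : Nat.Primes, q ∉ S → ∀ A : ValuationSubring Qb, A.LiesOverPrime (q : ℕ) →
      (∃ x : K, A.valuation ((b : Qb) * (x : Qb) ^ p) = 1) ∨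
      (∀ s ∈ A.decompositionSubgroup ℚ, s ∈ K.fixingSubgroup → χ s = 0)) :
    ∃ (ξ : Qb) (M₁ : IntermediateField ℚ Qb), ξ ≠ 0 ∧ M₁.IsUnramifiedOutside S ∧ ξ ∈ M₁ ∧
      ∀ τ ∈ K.fixingSubgroup, ∃ e ∈ M₁, e ^ p = τ ξ / (ξ * (b : Qb) ^ (χ τ).val) := by
  have hp : p.Prime := Fact.out
  obtain ⟨ξ, M₁, hξ, hM₁, -, -, -, hξM₁, hroot⟩ :=
    exists_xi_normal S hpS K hK χ hχadd M₀ hM₀ hχM b hb hloc
  refine ⟨ξ, M₁, hξ, hM₁, hξM₁, fun τ hτ => ?_⟩
  obtain ⟨e, he⟩ := IsAlgClosed.exists_pow_nat_eq (τ ξ / (ξ * (b : Qb) ^ (χ τ).val)) hp.pos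
  exact ⟨e, hroot τ hτ e he, he⟩

end Fermat.Agent.S55.Count.BrS
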