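import Mathlib
import Fermat.Agent.S55.Count.BrS.Xi
import Fermat.Agent.S55.Count.BrS.Cocycle
import Fermat.Agent.S55.Count.BrS.CocycleE

/-!
# (BrS): the descent cocycle, assembled (route COUNT, (BE)(ii))

`exists_xi_normal` (arithmetic half, `Xi.lean`) composed with the two landed algebraic halves:

* `brS_curried` : output shape of `Cocycle.brS_of_xi` (helper17);
* `brS_levelS` : output shape of `H125.exists_cocycle_of_data` (helper125): `y` is
  `IsLevelConstantS₂ S` on all of `Gq × Gq` (the Prelude predicate), a `2`-cocycle on `G_K`, and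
  for EVERY Kummer pair `(β, κ)` of `b` it is `κ ∪ χ + d u` on `G_K` with `u` level-constant.

(An independent complete proof with the same statement is `CFT/Count/BrS.brS` (helper228).)
-/

set_option autoImplicit false

open scoped IntermediateField
open groupCohomology

namespace Fermat.Agent.S55.Count.BrS

local notation "Qb" => AlgebraicClosure ℚ
local notation "Gq" => (AlgebraicClosure ℚ ≃ₐ[ℚ] AlgebraicClosure ℚ)

/-- **(BrS)**, curried form. -/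
theorem brS_curried {p : ℕ} [Fact p.Prime] (S : Finset Nat.Primes)
    (hpS : ExtCitation.pPrime p ∈ S) (K : IntermediateField ℚ Qb)
    (hK : K.IsUnramifiedOutside S) (ζ : K) (hζ : IsPrimitiveRoot ζ p) (χ : Gq → ZMod p)
    (hχadd : ∀ g ∈ K.fixingSubgroup, ∀ h ∈ K.fixingSubgroup, χ (g * h) = χ g + χ h)
    (M₀ : IntermediateField ℚ Qb) (hM₀ : M₀.IsUnramifiedOutside S)
    (hχM : ∀ g s, s ∈ M₀.fixingSubgroup → χ (g * s) = χ g)
    (b : K) (hb : b ≠ 0) (β : Qb) (hβ : β ^ p = (b : Qb))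
    (κ : Gq → ZMod p) (hκ : ∀ s ∈ K.fixingSubgroup, s β = (ζ : Qb) ^ (κ s).val * β)
    (hloc : ∀ q : Nat.Primes, q ∉ S → ∀ A : ValuationSubring Qb, A.LiesOverPrime (q : ℕ) →
      (∃ x : K, A.valuation ((b : Qb) * (x : Qb) ^ p) = 1) ∨
      (∀ s ∈ A.decompositionSubgroup ℚ, s ∈ K.fixingSubgroup → χ s = 0)) :
    ∃ (y : Gq → Gq → ZMod p) (u : Gq → ZMod p),
      (∃ F : IntermediateField ℚ Qb, F.IsUnramifiedOutside S ∧
        ∀ g ∈ K.fixingSubgroup, ∀ h ∈ K.fixingSubgroup,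
        ∀ s ∈ F.fixingSubgroup, ∀ t ∈ F.fixingSubgroup, y (g * s) (h * t) = y g h) ∧
      (∃ F' : IntermediateField ℚ Qb, FiniteDimensional ℚ F' ∧
        ∀ g s, s ∈ F'.fixingSubgroup → u (g * s) = u g) ∧
      ∀ g ∈ K.fixingSubgroup, ∀ h ∈ K.fixingSubgroup,
        y g h = κ g * χ h + (u g + u h - u (g * h)) := by
  obtain ⟨ξ, M₁, hξ, hM₁, hξM₁, hroot⟩ := exists_xi S hpS K hK χ hχadd M₀ hM₀ hχM b hb hloc
  exact Cocycle.brS_of_xi S K hK ζ hζ χ hχadd M₀ hM₀ hχM b hb β hβ κ hκ ξ hξ M₁ hM₁ hξM₁ hroot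

/-- **(BrS)**, level-`S` form: `y` is a Prelude level-`S` cochain on all of `Gq × Gq`, a
`2`-cocycle on `G_K`, and cohomologous on `G_K` (by a level-constant cochain) to `κ ∪ χ` for
every Kummer character `κ` of `b`. -/
theorem brS_levelS {p : ℕ} [Fact p.Prime] (S : Finset Nat.Primes)
    (hpS : ExtCitation.pPrime p ∈ S) (K : IntermediateField ℚ Qb)
    (hK : K.IsUnramifiedOutside S) (ζ : K) (hζ : IsPrimitiveRoot ζ p) (χ : Gq → ZMod p)
    (hχadd : ∀ g ∈ K.fixingSubgroup, ∀ h ∈ K.fixingSubgroup, χ (g * h) = χ g + χ h)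
    (M₀ : IntermediateField ℚ Qb) (hM₀ : M₀.IsUnramifiedOutside S)
    (hχM : ∀ g s, s ∈ M₀.fixingSubgroup → χ (g * s) = χ g)
    (b : K) (hb : b ≠ 0)
    (hloc : ∀ q : Nat.Primes, q ∉ S → ∀ A : ValuationSubring Qb, A.LiesOverPrime (q : ℕ) →
      (∃ x : K, A.valuation ((b : Qb) * (x : Qb) ^ p) = 1) ∨
      (∀ s ∈ A.decompositionSubgroup ℚ, s ∈ K.fixingSubgroup → χ s = 0)) :
    ∃ y : Gq × Gq → ZMod p,
      IsLevelConstantS₂ S y ∧
      (∀ g ∈ K.fixingSubgroup, ∀ h ∈ K.fixingSubgroup, ∀ k ∈ K.fixingSubgroup,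
        y (h, k) - y (g * h, k) + y (g, h * k) - y (g, h) = 0) ∧
      ∀ (β : Qb) (κ : Gq → ZMod p), β ^ p = (b : Qb) →
        (∀ s ∈ K.fixingSubgroup, s β = (ζ : Qb) ^ (κ s).val * β) →
        ∃ u : Gq → ZMod p,
          (∃ F' : IntermediateField ℚ Qb, FiniteDimensional ℚ F' ∧
            ∀ g s, s ∈ F'.fixingSubgroup → u (g * s) = u g) ∧
          ∀ g ∈ K.fixingSubgroup, ∀ h ∈ K.fixingSubgroup,
            y (g, h) = κ g * χ h + (u g + u h - u (g * h)) := by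
  have hp : p.Prime := Fact.out
  obtain ⟨ξ, M₁, hξ, hM₁, hnorm, hKM₁, hM₀M₁, hξM₁, hroot⟩ :=
    exists_xi_normal S hpS K hK χ hχadd M₀ hM₀ hχM b hb hloc
  have hχF : ∀ g s, s ∈ M₁.fixingSubgroup → χ (g * s) = χ g := fun g s hs =>
    hχM g s (IntermediateField.fixingSubgroup_antitone hM₀M₁ hs)
  let η : Gq → Qb := fun τ =>
    Fermat.Agent.S55.Base.Capit.rootP p (τ ξ / (ξ * (b : Qb) ^ (1 * (χ τ).val)))
  have hη : ∀ τ ∈ K.fixingSubgroup, η τ ^ p = τ ξ / (ξ * (b : Qb) ^ (1 * (χ τ).val)) :=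
    fun τ _ => Fermat.Agent.S55.Base.Capit.rootP_pow hp.pos _
  have hηF : ∀ τ s, s ∈ M₁.fixingSubgroup → η (τ * s) = η τ := by
    intro τ s hs
    have h1 : s ξ = ξ := (IntermediateField.mem_fixingSubgroup_iff M₁ s).mp hs ξ hξM₁
    show Fermat.Agent.S55.Base.Capit.rootP p ((τ * s) ξ / (ξ * (b : Qb) ^ (1 * (χ (τ * s)).val)))
      = Fermat.Agent.S55.Base.Capit.rootP p (τ ξ / (ξ * (b : Qb) ^ (1 * (χ τ).val)))
    rw [AlgEquiv.mul_apply, h1, hχF τ s hs]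
  have hηmem : ∀ τ ∈ K.fixingSubgroup, η τ ∈ M₁ := by
    intro τ hτ
    refine hroot τ hτ (η τ) ?_
    rw [hη τ hτ, one_mul]
  have := hnorm
  exact H125.exists_cocycle_of_data S K ζ hζ χ hχadd b hb 1 (Nat.coprime_one_left p) ξ hξ η hη
    M₁ hM₁ hKM₁ hχF hηF hηmem

end Fermat.Agent.S55.Count.BrS
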